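/-
helper14 (P-ORD, S33 assembly): the J-SIDE CONTRACT.

`OrdinaryTorsionStatement N p` is the only geometric input of the S33 assembly
(`Fermat.Agent.H14.ORD.s33_of_ordinaryTorsion`).  In words: for every place `A` of `ℚ̄` over `p`
with inertia group `I`, there is a constant `c > 0` such that for every `n` there is a subgroup
`W1` of `J₀(N)(ℚ̄)` (think: the `p ^ n`-torsion of the kernel of reduction of the connected
Néron model) with

* (s) `W1` is stable under `I`;
* (a) `c • (σ x - x) ∈ W1` for `σ ∈ I` and `p ^ n • x = 0`;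
* (b) `W1` has NO unramified subquotient: if `Y ≤ Y' ≤ W1` are subgroups, `Y` is `I`-stable and
  `I` acts trivially on `Y' / Y`, then `Y' = Y`.

(b) is EXACT (no constant): a constant there would make the statement useless, because a
subquotient of order `p` is killed by `p`.  No stability of `W1` under Hecke operators or under
the decomposition group is needed.
-/
import Fermat.Prelude.Def_ModularCurve_ArithmeticGalois
import Fermat.Prelude.Def_FLTPrelim_Ramification

set_option autoImplicit false

namespace Fermat.Agent.H14.ORD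

open ModularCurve

/-- "No unramified subquotient": for subgroups `Y ≤ Y' ≤ W` with `Y` stable under every element
of `Inert` and `Inert` acting trivially on `Y' / Y`, one has `Y' ≤ Y`. -/
def NoTrivSubquot {G M : Type} [AddCommGroup M] [SMul G M] (Inert : Set G)
    (W : AddSubgroup M) : Prop :=
  ∀ Y Y' : AddSubgroup M, Y ≤ Y' → Y' ≤ W →
    (∀ σ ∈ Inert, ∀ y ∈ Y, σ • y ∈ Y) → (∀ σ ∈ Inert, ∀ y ∈ Y', σ • y - y ∈ Y) → Y' ≤ Y

/-- **The J-side contract of S33** (ordinary torsion at a prime `p` of the level). -/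
def OrdinaryTorsionStatement (N p : ℕ) [NeZero N] : Prop :=
  ∀ A : ValuationSubring (AlgebraicClosure ℚ), A.LiesOverPrime p →
    ∃ c : ℕ, 0 < c ∧ ∀ n : ℕ, ∃ W1 : AddSubgroup (JZero N),
      (∀ σ ∈ A.inertiaSubgroupIn ℚ, ∀ x ∈ W1, σ • x ∈ W1) ∧
      (∀ σ ∈ A.inertiaSubgroupIn ℚ, ∀ x : JZero N, p ^ n • x = 0 → c • (σ • x - x) ∈ W1) ∧
      NoTrivSubquot (A.inertiaSubgroupIn ℚ : Set (AlgebraicClosure ℚ ≃ₐ[ℚ] AlgebraicClosure ℚ)) W1

end Fermat.Agent.H14.ORD
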