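/-
helper14 (P-ORD, S33 assembly): the ABSTRACT ALGEBRA (Mathlib only).

* `NoTrivAct act Inert W`: the subgroup `W` has no unramified subquotient (action given by an
  explicit function, to avoid instance juggling); it passes to images (`NoTrivAct.map`),
  finite powers (`NoTrivAct.pi`) and controls preimages (`NoTrivAct.exists_of_map_le`).
* `ord_chain`: the chain  `V --φ--> X^r`, `X` a quotient of `M^A`, `W1 ≤ M` without unramified
  subquotients and containing `c (σ - 1) M`:  if `t V` lies in the span of the `(σ - 1) V`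
  (`σ` in the inertia set) and `lam : V → K` is inertia invariant, then
  `c t V ⊆ c t ker(lam) + I V`.
* `ord_mem_of_chain`: hence `c t ∈ I`, if `V` is free of rank two over a local ring and
  `lam ≠ 0` kills `𝔪 V`.
* `ord_isUnit_det`, `ord_basis`: the basis `(u₀, e)`.
-/
import Mathlib

set_option autoImplicit false
set_option linter.style.haveILetI false

namespace Fermat.Agent.H14.ORD

/-! ### No unramified subquotients -/

/-- "No unramified subquotient", action given by a function. -/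
def NoTrivAct {G M : Type} [AddCommGroup M] (act : G → M → M) (Inert : Set G)
    (W : AddSubgroup M) : Prop :=
  ∀ Y Y' : AddSubgroup M, Y ≤ Y' → Y' ≤ W →
    (∀ σ ∈ Inert, ∀ y ∈ Y, act σ y ∈ Y) → (∀ σ ∈ Inert, ∀ y ∈ Y', act σ y - y ∈ Y) → Y' ≤ Y

section NoTriv

variable {G M M' : Type} [AddCommGroup M] [AddCommGroup M']

/-- Images of subgroups without unramified subquotients have no unramified subquotients. -/
theorem NoTrivAct.map {act : G → M → M} {act' : G → M' → M'} {Inert : Set G}
    {W : AddSubgroup M} (h : NoTrivAct act Inert W)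
    (hW : ∀ σ ∈ Inert, ∀ x ∈ W, act σ x ∈ W) (f : M →+ M')
    (hf : ∀ σ ∈ Inert, ∀ x : M, f (act σ x) = act' σ (f x)) :
    NoTrivAct act' Inert (W.map f) := by
  intro Y Y' hYY' hY'W hYs hYt
  have hle : W ⊓ Y'.comap f ≤ W ⊓ Y.comap f := by
    refine h (W ⊓ Y.comap f) (W ⊓ Y'.comap f) ?_ inf_le_left ?_ ?_
    · exact inf_le_inf_left W (AddSubgroup.comap_mono hYY')
    · intro σ hσ y hy
      obtain ⟨hyW, hyY⟩ := AddSubgroup.mem_inf.mp hy
      refine AddSubgroup.mem_inf.mpr ⟨hW σ hσ y hyW, ?_⟩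
      have hyY' : f y ∈ Y := hyY
      show f (act σ y) ∈ Y
      rw [hf σ hσ]
      exact hYs σ hσ _ hyY'
    · intro σ hσ y hy
      obtain ⟨hyW, hyY⟩ := AddSubgroup.mem_inf.mp hy
      refine AddSubgroup.mem_inf.mpr ⟨W.sub_mem (hW σ hσ y hyW) hyW, ?_⟩
      have hyY' : f y ∈ Y' := hyY
      show f (act σ y - y) ∈ Y
      rw [map_sub, hf σ hσ]
      exact hYt σ hσ _ hyY'
  intro y hy
  obtain ⟨w, hw, rfl⟩ := AddSubgroup.mem_map.mp (hY'W hy)
  have h2 := hle (AddSubgroup.mem_inf.mpr ⟨hw, (show f w ∈ Y' from hy)⟩)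
  exact (AddSubgroup.mem_inf.mp h2).2

/-- Control of preimages: if `f Y' ≤ W'` and `W'` has no unramified subquotient, then
`f Y' ≤ f Y` for `Y ≤ Y'` with trivial action on `Y' / Y`. -/
theorem NoTrivAct.exists_of_map_le {act : G → M → M} {act' : G → M' → M'} {Inert : Set G}
    {W' : AddSubgroup M'} (h : NoTrivAct act' Inert W') (f : M →+ M')
    (hf : ∀ σ ∈ Inert, ∀ x : M, f (act σ x) = act' σ (f x))
    (Y Y' : AddSubgroup M) (hYY' : Y ≤ Y') (hY'W : ∀ y ∈ Y', f y ∈ W')
    (hYs : ∀ σ ∈ Inert, ∀ y ∈ Y, act σ y ∈ Y)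
    (hYt : ∀ σ ∈ Inert, ∀ y ∈ Y', act σ y - y ∈ Y) :
    ∀ y' ∈ Y', ∃ y ∈ Y, f y' = f y := by
  have hle : Y'.map f ≤ Y.map f := by
    refine h (Y.map f) (Y'.map f) (AddSubgroup.map_mono hYY') ?_ ?_ ?_
    · rintro _ ⟨y, hy, rfl⟩
      exact hY'W y hy
    · rintro σ hσ _ ⟨y, hy, rfl⟩
      exact ⟨act σ y, hYs σ hσ y hy, hf σ hσ y⟩
    · rintro σ hσ _ ⟨y, hy, rfl⟩
      exact ⟨act σ y - y, hYt σ hσ y hy, by rw [map_sub, hf σ hσ y]⟩
  intro y' hy'
  obtain ⟨y, hy, hyy'⟩ := AddSubgroup.mem_map.mp (hle (AddSubgroup.mem_map_of_mem f hy'))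
  exact ⟨y, hy, hyy'.symm⟩

/-- Finite powers of subgroups without unramified subquotients. -/
theorem NoTrivAct.pi {ι : Type} [Finite ι] {act : G → M → M} {Inert : Set G}
    {W : AddSubgroup M} (h : NoTrivAct act Inert W)
    (hact : ∀ σ ∈ Inert, ∀ x y : M, act σ (x - y) = act σ x - act σ y) :
    NoTrivAct (fun (σ : G) (f : ι → M) (i : ι) => act σ (f i)) Inert
      (AddSubgroup.pi Set.univ fun _ : ι => W) := by
  classical
  haveI : Fintype ι := Fintype.ofFinite ι
  intro Y Y' hYY' hY'W hYs hYt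
  -- `P s` : the elements of `Y'` vanishing on `sᶜ` lie in `Y`
  have key : ∀ s : Finset ι, ∀ f ∈ Y', (∀ i, i ∉ s → f i = 0) → f ∈ Y := by
    intro s
    induction s using Finset.induction_on with
    | empty =>
      intro f _ hf0
      have : f = 0 := funext fun i => hf0 i (Finset.notMem_empty i)
      rw [this]
      exact Y.zero_mem
    | insert a s ha ih =>
      intro f hfY' hf0
      -- the two subgroups of `M` of values at `a`
      let F : AddSubgroup (ι → M) :=
        { carrier := {g | ∀ i, i ∉ insert a s → g i = 0}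
          zero_mem' := fun i _ => rfl
          add_mem' := fun {g g'} hg hg' i hi => by
            show g i + g' i = 0
            rw [hg i hi, hg' i hi, add_zero]
          neg_mem' := fun {g} hg i hi => by
            show -(g i) = 0
            rw [hg i hi, neg_zero] }
      have hFmem : ∀ g : ι → M, g ∈ F ↔ ∀ i, i ∉ insert a s → g i = 0 := fun g => Iff.rfl
      let ev : (ι → M) →+ M := Pi.evalAddMonoidHom (fun _ : ι => M) a
      have hact0 : ∀ σ ∈ Inert, act σ 0 = 0 := by
        intro σ hσ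
        have := hact σ hσ 0 0
        rwa [sub_self, sub_self] at this
      have hle : (Y' ⊓ F).map ev ≤ (Y ⊓ F).map ev := by
        refine h ((Y ⊓ F).map ev) ((Y' ⊓ F).map ev)
          (AddSubgroup.map_mono (inf_le_inf_right F hYY')) ?_ ?_ ?_
        · rintro _ ⟨g, ⟨hg, -⟩, rfl⟩
          exact hY'W hg a (Set.mem_univ a)
        · rintro σ hσ _ ⟨g, ⟨hg, hgF⟩, rfl⟩
          refine ⟨fun i => act σ (g i), ⟨hYs σ hσ g hg, fun i hi => ?_⟩, rfl⟩
          show act σ (g i) = 0
          rw [hgF i hi, hact0 σ hσ]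
        · rintro σ hσ _ ⟨g, ⟨hg, hgF⟩, rfl⟩
          refine ⟨(fun i => act σ (g i)) - g, ⟨hYt σ hσ g hg, fun i hi => ?_⟩, rfl⟩
          show act σ (g i) - g i = 0
          rw [hgF i hi, hact0 σ hσ, sub_zero]
      have hfF : f ∈ F := hf0
      obtain ⟨g, ⟨hgY, hgF⟩, hga⟩ := AddSubgroup.mem_map.mp
        (hle (AddSubgroup.mem_map_of_mem ev (⟨hfY', hfF⟩ : f ∈ Y' ⊓ F)))
      have hga' : g a = f a := hga
      have hsub : f - g ∈ Y := by
        refine ih (f - g) (Y'.sub_mem hfY' (hYY' hgY)) fun i hi => ?_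
        show f i - g i = 0
        by_cases hia : i = a
        · rw [hia, hga', sub_self]
        · have hi' : i ∉ insert a s := by
            rw [Finset.mem_insert]
            rintro (h1 | h1)
            · exact hia h1
            · exact hi h1
          rw [hf0 i hi', hgF i hi', sub_zero]
      have : f = (f - g) + g := by abel
      rw [this]
      exact Y.add_mem hsub hgY
  intro f hf
  exact key Finset.univ f hf fun i hi => absurd (Finset.mem_univ i) hi

end NoTriv

end Fermat.Agent.H14.ORD
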