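/-
helper14 (P-ORD, S33 assembly): the CHAIN (Mathlib only, on `ORD.Algebra`).

`ord_chain`: the situation of the Tate machine (`V --φ--> X^r`, `X` an equivariant quotient of
`M^A`, `ker φ ≤ I V`) together with a subgroup `W1 ≤ M` without unramified subquotients such
that `c (σ - 1) M ≤ W1`: if `t V` lies in the span of the `(σ - 1) V` (`σ` in the inertia set)
and `lam : V → K` is inertia invariant, then `c t V ⊆ c t ker(lam) + I V`.

`ord_mem_of_chain`: hence `c t ∈ I` if `V` has a basis over a local ring, `lam ≠ 0` and `K`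
is killed by the maximal ideal.

`ord_basis`: `(u, e)` is a basis if `lam u = 0`, `u ∉ 𝔪 V`, `lam e ≠ 0`.
-/
import Fermat.Agent.H14.ORD.Algebra

set_option autoImplicit false
set_option linter.style.haveILetI false
set_option linter.unusedSectionVars false

namespace Fermat.Agent.H14.ORD

open IsLocalRing

/-- **The chain.** -/
theorem ord_chain {G : Type} (T : Type) [CommRing T]
    (M : Type) [AddCommGroup M] (act : G → M → M)
    (hactsub : ∀ (σ : G) (x y : M), act σ (x - y) = act σ x - act σ y)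
    (A : Type) [Finite A]
    (X : Type) [AddCommGroup X] [Module T X] (τ : G → Module.End T X)
    (Ψ : (A → M) →+ X) (hΨs : Function.Surjective Ψ)
    (hΨe : ∀ (σ : G) (f : A → M), Ψ (fun a => act σ (f a)) = τ σ (Ψ f))
    (V : Type) [AddCommGroup V] [Module T V] (ρ : G → Module.End T V)
    (I : Ideal T) (r : ℕ) (φ : V →ₗ[T] (Fin r → X))
    (hφe : ∀ (σ : G) (v : V), φ (ρ σ v) = fun i => τ σ (φ v i))
    (hφk : ∀ v : V, φ v = 0 → v ∈ I • (⊤ : Submodule T V))
    (Inert : Set G) (c : ℕ) (W1 : AddSubgroup M)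
    (hW1s : ∀ σ ∈ Inert, ∀ x ∈ W1, act σ x ∈ W1)
    (hW1a : ∀ σ ∈ Inert, ∀ x : M, c • (act σ x - x) ∈ W1)
    (hW1b : NoTrivAct act Inert W1)
    (K : Type) [AddCommGroup K] [Module T K] (lam : V →ₗ[T] K)
    (hlam : ∀ σ ∈ Inert, ∀ v : V, lam (ρ σ v) = lam v)
    (t : T)
    (ht : ∀ v : V, t • v ∈
      Submodule.span T {w : V | ∃ σ ∈ Inert, ∃ v' : V, w = ρ σ v' - v'}) :
    ∀ v : V, ∃ w : V, lam w = 0 ∧ ((c : T) * t) • (v - w) ∈ I • (⊤ : Submodule T V) := by
  classical
  -- the subgroup `X1` of `X`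
  have hP1 : NoTrivAct (fun (σ : G) (f : A → M) (a : A) => act σ (f a)) Inert
      (AddSubgroup.pi Set.univ fun _ : A => W1) :=
    hW1b.pi fun σ _ x y => hactsub σ x y
  have hP1s : ∀ σ ∈ Inert, ∀ f ∈ AddSubgroup.pi Set.univ (fun _ : A => W1),
      (fun a => act σ (f a)) ∈ AddSubgroup.pi Set.univ (fun _ : A => W1) :=
    fun σ hσ f hf a _ => hW1s σ hσ _ (hf a (Set.mem_univ a))
  have hX1 : NoTrivAct (fun (σ : G) (x : X) => τ σ x) Inert
      ((AddSubgroup.pi Set.univ fun _ : A => W1).map Ψ) :=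
    hP1.map hP1s Ψ fun σ _ f => hΨe σ f
  have hXR : NoTrivAct (fun (σ : G) (f : Fin r → X) (i : Fin r) => τ σ (f i)) Inert
      (AddSubgroup.pi Set.univ fun _ : Fin r =>
        (AddSubgroup.pi Set.univ fun _ : A => W1).map Ψ) :=
    hX1.pi fun σ _ x y => map_sub (τ σ) x y
  -- (a) on `X`
  have haX : ∀ σ ∈ Inert, ∀ x : X,
      c • (τ σ x - x) ∈ (AddSubgroup.pi Set.univ fun _ : A => W1).map Ψ := by
    intro σ hσ x
    obtain ⟨f, rfl⟩ := hΨs x
    refine ⟨c • ((fun a => act σ (f a)) - f), ?_, ?_⟩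
    · intro a _
      exact hW1a σ hσ (f a)
    · rw [map_nsmul, map_sub, hΨe]
  -- (a) on `V`
  have hgen : ∀ σ ∈ Inert, ∀ v : V, φ (c • (ρ σ v - v)) ∈
      AddSubgroup.pi Set.univ fun _ : Fin r =>
        (AddSubgroup.pi Set.univ fun _ : A => W1).map Ψ := by
    intro σ hσ v i _
    have h1 : φ (c • (ρ σ v - v)) i = c • (τ σ (φ v i) - φ v i) := by
      rw [map_nsmul, map_sub, hφe]
      rfl
    rw [h1]
    exact haX σ hσ (φ v i)
  have hL : ∀ l ∈ Submodule.span T {w : V | ∃ σ ∈ Inert, ∃ v' : V, w = ρ σ v' - v'},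
      ∀ a : T, φ (c • (a • l)) ∈ AddSubgroup.pi Set.univ fun _ : Fin r =>
        (AddSubgroup.pi Set.univ fun _ : A => W1).map Ψ := by
    intro l hl
    induction hl using Submodule.span_induction with
    | mem w hw =>
      obtain ⟨σ, hσ, v', rfl⟩ := hw
      intro a
      rw [smul_sub, ← map_smul (ρ σ)]
      exact hgen σ hσ (a • v')
    | zero =>
      intro a
      rw [smul_zero, smul_zero, map_zero]
      exact AddSubgroup.zero_mem _
    | add x y _ _ hx hy =>
      intro a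
      rw [smul_add, smul_add, map_add]
      exact AddSubgroup.add_mem _ (hx a) (hy a)
    | smul b x _ hx =>
      intro a
      rw [smul_smul]
      exact hx (a * b)
  -- the two subgroups of `V`
  let mulct : V →+ V := DistribSMul.toAddMonoidHom V ((c : T) * t)
  have hmulct : ∀ v : V, mulct v = ((c : T) * t) • v := fun v => rfl
  have hmulct' : ∀ v : V, mulct v = c • (t • v) := by
    intro v
    rw [hmulct, mul_smul, Nat.cast_smul_eq_nsmul]
  have hex := NoTrivAct.exists_of_map_le (act := fun (σ : G) (v : V) => ρ σ v) hXR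
    φ.toAddMonoidHom (fun σ _ v => hφe σ v)
    ((lam.toAddMonoidHom.ker).map mulct) mulct.range ?_ ?_ ?_ ?_
  · intro v
    obtain ⟨y, ⟨w, hw, rfl⟩, hy⟩ := hex (mulct v) ⟨v, rfl⟩
    refine ⟨w, hw, hφk _ ?_⟩
    have h1 : φ (mulct v) = φ (mulct w) := hy
    rw [smul_sub, map_sub, ← hmulct, ← hmulct, h1, sub_self]
  · rintro _ ⟨w, -, rfl⟩
    exact ⟨w, rfl⟩
  · rintro _ ⟨v, rfl⟩
    show φ (mulct v) ∈ _
    rw [hmulct']
    have := hL (t • v) (ht v) 1
    rwa [one_smul] at this
  · rintro σ hσ _ ⟨w, hw, rfl⟩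
    refine ⟨ρ σ w, ?_, ?_⟩
    · show lam (ρ σ w) = 0
      rw [hlam σ hσ]
      exact hw
    · show mulct (ρ σ w) = ρ σ (mulct w)
      rw [hmulct, hmulct, map_smul]
  · rintro σ hσ _ ⟨v, rfl⟩
    refine ⟨ρ σ v - v, ?_, ?_⟩
    · show lam (ρ σ v - v) = 0
      rw [map_sub, hlam σ hσ, sub_self]
    · show mulct (ρ σ v - v) = ρ σ (mulct v) - mulct v
      rw [hmulct, hmulct, map_smul, smul_sub]

section Local

variable {T : Type} [CommRing T] [IsLocalRing T] {V : Type} [AddCommGroup V] [Module T V]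
  {K : Type} [AddCommGroup K] [Module T K]

/-- An element on which `lam` does not vanish has a unit coordinate. -/
theorem ord_exists_isUnit_repr {ι : Type} [Fintype ι] (b : Module.Basis ι T V)
    (hK : ∀ a ∈ maximalIdeal T, ∀ k : K, a • k = 0) (lam : V →ₗ[T] K) (u : V)
    (hu : lam u ≠ 0) : ∃ i, IsUnit (b.repr u i) := by
  by_contra hno
  have hno : ∀ i, ¬ IsUnit (b.repr u i) := fun i hi => hno ⟨i, hi⟩
  apply hu
  rw [← b.sum_repr u, map_sum]
  refine Finset.sum_eq_zero fun i _ => ?_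
  rw [map_smul]
  exact hK _ ((mem_maximalIdeal _).mpr (hno i)) _

/-- Coordinates of elements of `I V` lie in `I`. -/
theorem ord_repr_mem {ι : Type} (b : Module.Basis ι T V) (I : Ideal T) {x : V}
    (hx : x ∈ I • (⊤ : Submodule T V)) (i : ι) : b.repr x i ∈ I := by
  refine Submodule.smul_induction_on hx ?_ ?_
  · intro a ha v _
    rw [map_smul, Finsupp.smul_apply, smul_eq_mul]
    exact I.mul_mem_right _ ha
  · intro x y hx hy
    rw [map_add, Finsupp.add_apply]
    exact I.add_mem hx hy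

/-- **From the chain to membership.** -/
theorem ord_mem_of_chain {ι : Type} [Fintype ι] (b : Module.Basis ι T V)
    (hK : ∀ a ∈ maximalIdeal T, ∀ k : K, a • k = 0) (lam : V →ₗ[T] K) (e : V)
    (he : lam e ≠ 0) (I : Ideal T) (s : T)
    (h : ∀ v : V, ∃ w : V, lam w = 0 ∧ s • (v - w) ∈ I • (⊤ : Submodule T V)) : s ∈ I := by
  obtain ⟨w, hw, hs⟩ := h e
  have hu : lam (e - w) ≠ 0 := by
    rw [map_sub, hw, sub_zero]
    exact he
  obtain ⟨i, hi⟩ := ord_exists_isUnit_repr b hK lam (e - w) hu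
  have h1 := ord_repr_mem b I hs i
  rw [map_smul, Finsupp.smul_apply, smul_eq_mul] at h1
  exact (Ideal.mul_unit_mem_iff_mem I hi).mp h1

/-- **The basis `(u, e)`.** -/
theorem ord_basis (b : Module.Basis (Fin 2) T V)
    (hK : ∀ a ∈ maximalIdeal T, ∀ k : K, a • k = 0) (lam : V →ₗ[T] K) (u e : V)
    (hu : lam u = 0) (hu' : ∃ i, IsUnit (b.repr u i)) (he : lam e ≠ 0) :
    ∃ B : Module.Basis (Fin 2) T V, B 0 = u ∧ B 1 = e := by
  classical
  set x0 := b.repr u 0 with hx0
  set x1 := b.repr u 1 with hx1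
  set y0 := b.repr e 0 with hy0
  set y1 := b.repr e 1 with hy1
  have hsum : ∀ v : V, v = b.repr v 0 • b 0 + b.repr v 1 • b 1 := by
    intro v
    conv_lhs => rw [← b.sum_repr v]
    rw [Fin.sum_univ_two]
  have hlu : x0 • lam (b 0) + x1 • lam (b 1) = 0 := by
    rw [← hu]
    conv_rhs => rw [hsum u]
    rw [map_add, map_smul, map_smul]
  have hle : lam e = y0 • lam (b 0) + y1 • lam (b 1) := by
    conv_lhs => rw [hsum e]
    rw [map_add, map_smul, map_smul]
  have hD : IsUnit (x0 * y1 - x1 * y0) := by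
    by_contra hD
    have hDm : x0 * y1 - x1 * y0 ∈ maximalIdeal T := (mem_maximalIdeal _).mpr hD
    have h0 : (x0 * y1 - x1 * y0) • lam (b 0) = -(x1 • lam e) := by
      have hx : x0 • lam (b 0) = -(x1 • lam (b 1)) := eq_neg_of_add_eq_zero_left hlu
      rw [hle, sub_smul, mul_comm x0 y1, mul_smul, hx, mul_smul, smul_add, smul_neg,
        smul_smul x1 y1, smul_smul y1 x1, mul_comm y1 x1]
      abel
    have h1 : (x0 * y1 - x1 * y0) • lam (b 1) = x0 • lam e := by
      have hx : x1 • lam (b 1) = -(x0 • lam (b 0)) := eq_neg_of_add_eq_zero_right hlu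
      rw [hle, sub_smul, mul_comm x1 y0, mul_smul y0 x1, hx, mul_smul, smul_add, smul_neg,
        smul_smul x0 y0, smul_smul y0 x0, mul_comm y0 x0]
      abel
    rw [hK _ hDm] at h0 h1
    obtain ⟨i, hi⟩ := hu'
    fin_cases i
    · apply he
      have h2 : x0 • lam e = 0 := h1.symm
      have hi' : IsUnit x0 := hi
      obtain ⟨z, hz⟩ := hi'.exists_left_inv
      calc lam e = (z * x0) • lam e := by rw [hz, one_smul]
        _ = 0 := by rw [mul_smul, h2, smul_zero]
    · apply he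
      have h2 : x1 • lam e = 0 := by
        have := h0.symm
        rwa [neg_eq_zero] at this
      have hi' : IsUnit x1 := hi
      obtain ⟨z, hz⟩ := hi'.exists_left_inv
      calc lam e = (z * x1) • lam e := by rw [hz, one_smul]
        _ = 0 := by rw [mul_smul, h2, smul_zero]
  have hdet : IsUnit (b.det ![u, e]) := by
    have : b.det ![u, e] = x0 * y1 - x1 * y0 := by
      rw [Module.Basis.det_apply, Matrix.det_fin_two]
      simp only [Module.Basis.toMatrix_apply, Matrix.cons_val_zero, Matrix.cons_val_one]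
      rw [hx0, hx1, hy0, hy1]
      ring
    rw [this]
    exact hD
  obtain ⟨hli, hsp⟩ := (Module.Basis.is_basis_iff_det b).mpr hdet
  refine ⟨Module.Basis.mk hli hsp.ge, ?_, ?_⟩
  · rw [Module.Basis.mk_apply]
    rfl
  · rw [Module.Basis.mk_apply]
    rfl

end Local

end Fermat.Agent.H14.ORD
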