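/-
helper14 (P-ORD, S33 assembly): the frozen S33 from
* `hOT : OrdinaryTorsionStatement N p`  (the J-side contract, `ORD.Interfaces`), and
* `hram` : the representation is residually ramified at `p` (some inertia element at each place
  over `p` does not act trivially on `V / 𝔪 V`; follows from `det = cyclotomic`).

Everything else is plugged in: the key lemma and the torsion package of `J₀(N)` (P-ES),
Frobenius-power density, BLR, embedding, span, generator bound, determinant trick, reducedness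
of the coefficient ring, power bound.
-/
import Fermat.Agent.H14.ORD.Assembly
import Fermat.Agent.H14.FFF.Final
import Fermat.Agent.H37.ES37Formal
import Fermat.Prelude.Def_GaloisRep_LocalConditions

set_option autoImplicit false
set_option linter.style.haveILetI false
set_option linter.unusedSectionVars false

namespace Fermat.Agent.H14.ORD

open IsLocalRing TensorProduct ModularCurve Fermat.Agent.H14 Fermat.Agent.H14.FFF
  Fermat.Agent.H10.FF

section Final

variable {p : ℕ} {N : ℕ} [NeZero N] {S : Finset ℕ}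
  {𝒪 : Type} [CommRing 𝒪] [IsDomain 𝒪] [IsDiscreteValuationRing 𝒪]
  [IsAdicComplete (IsLocalRing.maximalIdeal 𝒪) 𝒪]
  {θ : CuspForm.heckeAlgebra N 2 (↑S : Set ℕ) →+* IsLocalRing.ResidueField 𝒪}
  {T : Type} [CommRing T] [IsLocalRing T] [IsNoetherianRing T]
  [IsAdicComplete (IsLocalRing.maximalIdeal T) T] [Algebra 𝒪 T] [IsLocalHom (algebraMap 𝒪 T)]
  [Module.Finite 𝒪 T] [Module.Free 𝒪 T]

/-- **The bridge from the residual hypothesis**: an inertia-invariant nonzero functional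
`V → T / 𝔪`. -/
theorem ord_lam (H : CuspForm.HeckeGaloisRepDatum N (↑S : Set ℕ) 𝒪 θ T)
    (hres : (GaloisRepAdic.ofResidualGaloisRep H.ρ.residual).IsOrdinaryAt p)
    (A : ValuationSubring (AlgebraicClosure ℚ)) (hA : A.LiesOverPrime p) :
    ∃ lam : H.ρ.V →ₗ[T] IsLocalRing.ResidueField T, (∃ e : H.ρ.V, lam e ≠ 0) ∧
      ∀ σ ∈ A.inertiaSubgroupIn ℚ, ∀ v : H.ρ.V, lam (H.ρ.ρ σ v) = lam v := by
  obtain ⟨L, ⟨b, hb⟩, -, hI⟩ := hres A hA
  let b' : Module.Basis (Fin 2) (IsLocalRing.ResidueField T)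
      (IsLocalRing.ResidueField T ⊗[T] H.ρ.V) := b
  let ι : H.ρ.V →ₗ[T] IsLocalRing.ResidueField T ⊗[T] H.ρ.V :=
    TensorProduct.mk T (IsLocalRing.ResidueField T) H.ρ.V 1
  have hι : ∀ v : H.ρ.V, ι v = (1 : IsLocalRing.ResidueField T) ⊗ₜ[T] v := fun v => rfl
  let lam : H.ρ.V →ₗ[T] IsLocalRing.ResidueField T :=
    ((b'.coord 1).restrictScalars T).comp ι
  have hlam : ∀ v : H.ρ.V, lam v = b'.coord 1 ((1 : IsLocalRing.ResidueField T) ⊗ₜ[T] v) :=
    fun v => rfl
  refine ⟨lam, ?_, ?_⟩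
  · by_contra hno
    have hno' : ∀ e : H.ρ.V, lam e = 0 := fun e => by
      by_contra he
      exact hno ⟨e, he⟩
    have h0 : ∀ w : IsLocalRing.ResidueField T ⊗[T] H.ρ.V, b'.coord 1 w = 0 := by
      intro w
      induction w using TensorProduct.induction_on with
      | zero => exact map_zero _
      | tmul c v =>
        have h1 : c ⊗ₜ[T] v = c • ((1 : IsLocalRing.ResidueField T) ⊗ₜ[T] v) := by
          rw [TensorProduct.smul_tmul', smul_eq_mul, mul_one]
        rw [h1, map_smul, ← hlam, hno' v, smul_zero]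
      | add x y hx hy => rw [map_add, hx, hy, add_zero]
    have h1 : b'.coord 1 (b' 1) = 1 := by
      rw [Module.Basis.coord_apply, Module.Basis.repr_self, Finsupp.single_eq_same]
    rw [h0] at h1
    exact zero_ne_one h1
  · intro σ hσ v
    have h1 := hI σ hσ ((1 : IsLocalRing.ResidueField T) ⊗ₜ[T] v)
    rw [hb] at h1
    obtain ⟨a, ha⟩ := Submodule.mem_span_singleton.mp h1
    have h2 : (GaloisRepAdic.ofResidualGaloisRep H.ρ.residual).ρ σ
        ((1 : IsLocalRing.ResidueField T) ⊗ₜ[T] v)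
        = (1 : IsLocalRing.ResidueField T) ⊗ₜ[T] (H.ρ.ρ σ v) := rfl
    rw [h2] at ha
    have h3 : b'.coord 1 ((1 : IsLocalRing.ResidueField T) ⊗ₜ[T] (H.ρ.ρ σ v)
        - (1 : IsLocalRing.ResidueField T) ⊗ₜ[T] v) = 0 := by
      have ha' : ((1 : IsLocalRing.ResidueField T) ⊗ₜ[T] (H.ρ.ρ σ v)
          - (1 : IsLocalRing.ResidueField T) ⊗ₜ[T] v :
            IsLocalRing.ResidueField T ⊗[T] H.ρ.V) = a • b' 0 := ha.symm
      have hb0 : b'.coord 1 (b' 0) = 0 := by
        rw [Module.Basis.coord_apply, Module.Basis.repr_self,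
          Finsupp.single_eq_of_ne (by decide)]
      rw [ha', map_smul, hb0, smul_zero]
    rw [map_sub, sub_eq_zero] at h3
    rw [hlam, hlam, h3]

/-- **S33 from the ordinary torsion contract and residual ramification.** -/
theorem s33_of_ordinaryTorsion_of_ram (hOT : OrdinaryTorsionStatement N p)
    [Finite (IsLocalRing.ResidueField 𝒪)] [CharZero 𝒪]
    (hp : p.Prime) (hp2 : p ≠ 2) (hp𝒪 : (p : 𝒪) ∈ IsLocalRing.maximalIdeal 𝒪)
    (hN : p ∣ N ∧ ¬ p ^ 2 ∣ N)
    (hNS : ∀ q : ℕ, q.Prime → q ∣ N → q ∈ S)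
    (H : CuspForm.HeckeGaloisRepDatum N (↑S : Set ℕ) 𝒪 θ T)
    (hram : ∀ A : ValuationSubring (AlgebraicClosure ℚ), A.LiesOverPrime p →
      ∃ σ ∈ A.inertiaSubgroupIn ℚ, ∃ v : H.ρ.V,
        H.ρ.ρ σ v - v ∉ (IsLocalRing.maximalIdeal T) • (⊤ : Submodule T H.ρ.V))
    (hres : (GaloisRepAdic.ofResidualGaloisRep H.ρ.residual).IsOrdinaryAt p) :
    H.ρ.IsOrdinaryAt p := by
  classical
  have hpS : p ∈ S := hNS p hp hN.1
  haveI hfinres : Finite (IsLocalRing.ResidueField T) := ff_finite_residueField H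
  haveI : IsReduced (CuspForm.heckeAlgebra N 2 (↑S : Set ℕ)) :=
    Fermat.Agent.H30.heckeReduced N (↑S : Set ℕ)
      (fun q hq hqN => Finset.mem_coe.mpr (hNS q hq hqN))
  haveI : Module.Finite ℤ (CuspForm.heckeAlgebra N 2 (↑S : Set ℕ)) :=
    Fermat.Agent.H36.heckeAlgebra_finite_of_hasIntegralStructure N 2 (↑S : Set ℕ)
      (Fermat.Agent.H22.hasIntegralStructure N 2)
  haveI : IsReduced T :=
    Fermat.Agent.H65.coeffReduced (CuspForm.heckeAlgebra N 2 (↑S : Set ℕ)) 𝒪 T H.π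
      H.adjoin_range_π
  intro P hP
  obtain ⟨cc, hcc, hW⟩ := hOT P hP
  obtain ⟨lam, ⟨e, he⟩, hlam⟩ := ord_lam H hres P hP
  obtain ⟨σ₀, hσ₀, v₁, hv₁⟩ := hram P hP
  set Inert : Set S31GQ := (P.inertiaSubgroupIn ℚ : Set S31GQ) with hInert
  set Lsub : Submodule T H.ρ.V :=
    Submodule.span T {w : H.ρ.V | ∃ σ ∈ Inert, ∃ v' : H.ρ.V, w = H.ρ.ρ σ v' - v'} with hLsub
  set u : H.ρ.V := H.ρ.ρ σ₀ v₁ - v₁ with hu
  have huL : u ∈ Lsub := Submodule.subset_span ⟨σ₀, hσ₀, v₁, rfl⟩
  have hlamu : lam u = 0 := by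
    rw [hu, map_sub, hlam σ₀ hσ₀, sub_self]
  have hK0 : ∀ a ∈ maximalIdeal T, ∀ k : IsLocalRing.ResidueField T, a • k = 0 := by
    intro a ha k
    rw [Algebra.smul_def, IsLocalRing.ResidueField.algebraMap_eq,
      (IsLocalRing.residue_eq_zero_iff a).mpr ha, zero_mul]
  let b₀ := Module.finBasisOfFinrankEq T H.ρ.V H.ρ.finrank_eq
  have hunit : ∃ i, IsUnit (b₀.repr u i) := by
    by_contra hno
    apply hv₁
    have hno' : ∀ i, b₀.repr u i ∈ maximalIdeal T := fun i =>
      (mem_maximalIdeal _).mpr fun hi => hno ⟨i, hi⟩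
    rw [← b₀.sum_repr u]
    exact Submodule.sum_mem _ fun i _ =>
      Submodule.smul_mem_smul (hno' i) Submodule.mem_top
  obtain ⟨B, hB0, hB1⟩ := ord_basis b₀ hK0 lam u e hlamu hunit he
  -- the key: the `e`-coordinate of every element of `Lsub` vanishes
  have hkey : ∀ y : T, y • e ∈ Lsub → y = 0 := by
    intro y hy
    have hyV : ∀ v : H.ρ.V, y • v ∈ Lsub := by
      intro v
      have hv : v = B.repr v 0 • u + B.repr v 1 • e := by
        conv_lhs => rw [← B.sum_repr v]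
        rw [Fin.sum_univ_two, hB0, hB1]
      rw [hv, smul_add, smul_comm y, smul_comm y]
      exact Lsub.add_mem (Lsub.smul_mem _ (Lsub.smul_mem _ huL)) (Lsub.smul_mem _ hy)
    have hall : ∀ k : ℕ, (cc : T) * y ∈ maximalIdeal T ^ k := by
      intro k
      have hfin : Finite (T ⧸ maximalIdeal T ^ k) :=
        (IsLocalRing.finite_quotient_iff).mpr ⟨k, le_rfl⟩
      exact ord_mul_mem_abstract (J := JZero N) (Top := heckeOperatorBar N)
        Fermat.Agent.H72.frobPow Fermat.Agent.H67.BLR.blr Fermat.Agent.H34.embedding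
        Fermat.Agent.H38.ffSpan Fermat.Agent.H30.FF.generatorBound
        Fermat.Agent.H39.detTrickStatement Fermat.Agent.H95.FF.powerBound
        hp hp2 hp𝒪 hpS hNS
        (Fermat.Agent.H49.heckeGaloisTorsionStatement N)
        (Fermat.Agent.H36.eichlerShimuraRel_of_KL N
          (fun ℓ hℓ hℓN => Fermat.Agent.H22.KL.keyLemmaAll N ℓ hℓ hℓN))
        (s31w_level N) (s31w_kummerEmbedding N) (Fermat.Agent.H79.cohFaithful N S)
        Fermat.Agent.H48.Lat.latticeBound
        (fun m hm => ff_finite_s31JTors N m hm)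
        H Inert cc hW lam e he hlam y hyV (maximalIdeal T ^ k) hfin
    have hbot : (cc : T) * y = 0 := by
      have h1 : (cc : T) * y ∈ ⨅ k : ℕ, maximalIdeal T ^ k :=
        (Ideal.mem_iInf).mpr hall
      rw [Ideal.iInf_pow_eq_bot_of_isLocalRing (maximalIdeal T)
        (IsLocalRing.maximalIdeal.isMaximal T).ne_top] at h1
      exact h1
    have hcc0 : (cc : 𝒪) ≠ 0 := Nat.cast_ne_zero.mpr hcc.ne'
    have h2 : (cc : 𝒪) • y = 0 := by
      rw [Algebra.smul_def, map_natCast]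
      exact hbot
    exact (smul_eq_zero.mp h2).resolve_left hcc0
  have hLeq : Lsub = T ∙ B 0 := by
    apply le_antisymm
    · intro l hl
      have hl' : l = B.repr l 0 • u + B.repr l 1 • e := by
        conv_lhs => rw [← B.sum_repr l]
        rw [Fin.sum_univ_two, hB0, hB1]
      have h1 : B.repr l 1 • e ∈ Lsub := by
        have : B.repr l 1 • e = l - B.repr l 0 • u := by
          rw [eq_sub_iff_add_eq, add_comm]
          exact hl'.symm
        rw [this]
        exact Lsub.sub_mem hl (Lsub.smul_mem _ huL)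
      rw [hl', hkey _ h1, zero_smul, add_zero, hB0]
      exact Submodule.mem_span_singleton.mpr ⟨_, rfl⟩
    · rw [Submodule.span_singleton_le_iff_mem, hB0]
      exact huL
  refine ⟨Lsub, ⟨B, hLeq⟩, ?_, ?_⟩
  · intro σ hσ v hv
    refine Submodule.span_induction (p := fun w _ => H.ρ.ρ σ w ∈ Lsub) ?_ ?_ ?_ ?_ hv
    · rintro w ⟨τ, hτ, v', rfl⟩
      have hconj : σ * τ * σ⁻¹ ∈ P.inertiaSubgroupIn ℚ :=
        Fermat.Agent.H37.conj_mem_inertiaSubgroupIn hσ hτ
      have h1 : H.ρ.ρ σ (H.ρ.ρ τ v' - v')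
          = H.ρ.ρ (σ * τ * σ⁻¹) (H.ρ.ρ σ v') - H.ρ.ρ σ v' := by
        rw [map_sub]
        congr 1
        rw [← Module.End.mul_apply, ← Module.End.mul_apply, ← map_mul, ← map_mul,
          inv_mul_cancel_right]
      rw [h1]
      exact Submodule.subset_span ⟨σ * τ * σ⁻¹, hconj, H.ρ.ρ σ v', rfl⟩
    · rw [map_zero]
      exact Lsub.zero_mem
    · intro x y _ _ hx hy
      rw [map_add]
      exact Lsub.add_mem hx hy
    · intro a x _ hx
      rw [map_smul]
      exact Lsub.smul_mem _ hx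
  · intro σ hσ v
    exact Submodule.subset_span ⟨σ, hσ, v, rfl⟩

end Final

end Fermat.Agent.H14.ORD
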