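/-
helper14 (P-ORD, row ORD-A3 NOSUB), part 3: separation by invariants (Mathlib only).

* `ns_span_eq_top`       : a point-separating subring of functions on a finite set spans all
                           functions over the field;
* `ns_exists_scalar_mem` : an equivariant function has a nonzero multiple `s • f`, `s ∈ R`,
                           in the order `H` (Galois descent of the coefficients with respect to
                           a representation of minimal length).
-/
import Fermat.Agent.H14.ORD.NoSubAbs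

set_option autoImplicit false
set_option linter.unusedVariables false
set_option linter.unusedSectionVars false

noncomputable section

namespace Fermat.Agent.H14.ORD

open Finset

section Sep

variable {K : Type*} [Field K] {Γ : Type*} {Z : Type*}

/-- A point-separating subring of functions on a finite set spans all functions. -/
theorem ns_span_eq_top [Finite Z] (H : Subring (Z → K))
    (hsep : ∀ z z' : Z, z ≠ z' → ∃ h ∈ H, h z ≠ h z') (f : Z → K) :
    f ∈ Submodule.span K (H : Set (Z → K)) := by
  classical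
  have := Fintype.ofFinite Z
  set S : Subalgebra K (Z → K) := Algebra.adjoin K (H : Set (Z → K)) with hS
  have hHS : ∀ h ∈ H, h ∈ S := fun h hh => Algebra.subset_adjoin hh
  -- the indicator functions
  have hδ : ∀ z : Z, (Pi.single z (1 : K) : Z → K) ∈ S := by
    intro z
    have hg : ∀ z' : Z, ∃ g ∈ S, g z = 1 ∧ (z' ≠ z → g z' = 0) := by
      intro z'
      by_cases hz : z' = z
      · exact ⟨1, S.one_mem, rfl, fun h => absurd hz h⟩
      · obtain ⟨h, hh, hne⟩ := hsep z z' (Ne.symm hz)
        have hd : h z - h z' ≠ 0 := sub_ne_zero.2 hne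
        refine ⟨(h z - h z')⁻¹ • (h - algebraMap K (Z → K) (h z')),
          S.smul_mem (S.sub_mem (hHS h hh) (S.algebraMap_mem _)) _, ?_, fun _ => ?_⟩
        · simp only [Pi.smul_apply, Pi.sub_apply, smul_eq_mul]
          rw [Pi.algebraMap_apply]
          exact inv_mul_cancel₀ hd
        · simp only [Pi.smul_apply, Pi.sub_apply, smul_eq_mul]
          rw [Pi.algebraMap_apply]
          simp
    choose g hgS hg1 hg0 using hg
    have : (Pi.single z (1 : K) : Z → K) = ∏ z', g z' := by
      funext w
      rw [Finset.prod_apply]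
      by_cases hw : w = z
      · subst hw
        rw [Pi.single_eq_same]
        exact (Finset.prod_eq_one fun z' _ => hg1 z').symm
      · rw [Pi.single_eq_of_ne hw]
        exact (Finset.prod_eq_zero (f := fun z' => g z' w) (Finset.mem_univ w) (hg0 w hw)).symm
    rw [this]
    exact S.prod_mem fun z' _ => hgS z'
  have hfS : f ∈ S := by
    have : f = ∑ z, f z • (Pi.single z (1 : K) : Z → K) := by
      funext w
      rw [Finset.sum_apply]
      simp [Pi.single_apply]
    rw [this]
    exact S.sum_mem fun z _ => S.smul_mem (hδ z) _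
  have hspan : Subalgebra.toSubmodule S = Submodule.span K (H : Set (Z → K)) := by
    have hcl : Submonoid.closure (H : Set (Z → K)) = H.toSubmonoid :=
      Submonoid.closure_eq H.toSubmonoid
    rw [hS, Algebra.adjoin_eq_span, hcl]
    rfl
  have : f ∈ Subalgebra.toSubmodule S := hfS
  rw [hspan] at this
  exact this

variable [AddCommGroup Z] {I : Set Γ} {φ : Γ → K →+* K} {act : Γ → Z → Z}
  {A : ValuationSubring K} {R : Subring K} {H : Subring (Z → K)}

/-- Shortening a representation along a linear relation. -/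
theorem ns_shorten_repr {m : ℕ} (f : Z → K) (c : Fin (m + 1) → K) (e : Fin (m + 1) → Z → K)
    (hf : ∑ i, c i • e i = f) (hdep : ¬ LinearIndependent K e) :
    ∃ (c' : Fin m → K) (j : Fin m → Fin (m + 1)), ∑ i, c' i • e (j i) = f := by
  classical
  obtain ⟨g, hg, i₁, hi₁⟩ := Fintype.not_linearIndependent_iff.1 hdep
  refine ⟨fun j => c (i₁.succAbove j) - c i₁ * (g (i₁.succAbove j) / g i₁),
    fun j => i₁.succAbove j, ?_⟩
  rw [Fin.sum_univ_succAbove _ i₁] at hg hf
  have h2 : e i₁ = -∑ j, (g (i₁.succAbove j) / g i₁) • e (i₁.succAbove j) := by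
    have h3 : e i₁ = (g i₁)⁻¹ • (g i₁ • e i₁) := by
      rw [smul_smul, inv_mul_cancel₀ hi₁, one_smul]
    rw [h3, eq_neg_of_add_eq_zero_left hg, smul_neg, Finset.smul_sum]
    congr 1
    refine Finset.sum_congr rfl fun j _ => ?_
    rw [smul_smul, div_eq_inv_mul]
  rw [← hf]
  conv_rhs => rw [h2]
  rw [smul_neg, Finset.smul_sum, ← Finset.sum_neg_distrib, ← Finset.sum_add_distrib]
  refine Finset.sum_congr rfl fun j _ => ?_
  rw [sub_smul, smul_smul]
  abel

/-- **Galois descent.**  An equivariant function has a nonzero `R`-multiple in `H`. -/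
theorem ns_exists_scalar_mem [Finite Z] (hO : NsOrder A R I φ act H) (f : Z → K)
    (hf : NsEquiv I φ act f) : ∃ s ∈ R, s ≠ 0 ∧ (fun z => s * f z) ∈ H := by
  classical
  -- a representation of minimal length
  have hex : ∃ n : ℕ, ∃ (c : Fin n → K) (e : Fin n → Z → K), (∀ i, e i ∈ H) ∧
      ∑ i, c i • e i = f := by
    obtain ⟨n, c, g, hcg⟩ := Submodule.mem_span_set'.1 (ns_span_eq_top H hO.separates f)
    exact ⟨n, c, fun i => (g i : Z → K), fun i => (g i).2, hcg⟩
  obtain ⟨n, hn, hmin⟩ : ∃ n : ℕ, (∃ (c : Fin n → K) (e : Fin n → Z → K), (∀ i, e i ∈ H) ∧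
      ∑ i, c i • e i = f) ∧ ∀ m < n, ¬ ∃ (c : Fin m → K) (e : Fin m → Z → K), (∀ i, e i ∈ H) ∧
      ∑ i, c i • e i = f :=
    ⟨Nat.find hex, Nat.find_spec hex, fun m hm => Nat.find_min hex hm⟩
  obtain ⟨c, e, he, hce⟩ := hn
  have hli : LinearIndependent K e := by
    by_contra hdep
    cases n with
    | zero => exact hdep linearIndependent_empty_type
    | succ m =>
      obtain ⟨c', j, hc'⟩ := ns_shorten_repr f c e hce hdep
      exact hmin m (Nat.lt_succ_self m) ⟨c', fun i => e (j i), fun i => he _, hc'⟩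
  have hfix : ∀ σ ∈ I, ∀ i, φ σ (c i) = c i := fun σ hσ i =>
    ns_coeff_fixed hO.surj e (fun i => hO.equiv _ (he i)) hli c (by rw [hce]; exact hf) hσ i
  -- denominators
  have hden : ∀ i, ∃ s ∈ R, s ≠ 0 ∧ s * c i ∈ R := by
    intro i
    by_cases hc : c i ∈ A
    · exact ⟨1, R.one_mem, one_ne_zero, by
        rw [one_mul]
        exact (hO.mem_R _).2 ⟨hc, fun σ hσ => hfix σ hσ i⟩⟩
    · have hinv : (c i)⁻¹ ∈ A := (A.mem_or_inv_mem (c i)).resolve_left hc
      have hc0 : c i ≠ 0 := fun h0 => hc (by rw [h0]; exact A.zero_mem)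
      refine ⟨(c i)⁻¹, (hO.mem_R _).2 ⟨hinv, fun σ hσ => ?_⟩, inv_ne_zero hc0, ?_⟩
      · rw [map_inv₀, hfix σ hσ i]
      · rw [inv_mul_cancel₀ hc0]
        exact R.one_mem
  choose s hsR hs0 hsc using hden
  refine ⟨∏ i, s i, R.prod_mem fun i _ => hsR i, Finset.prod_ne_zero_iff.2 fun i _ => hs0 i, ?_⟩
  have hcoef : ∀ i, (∏ k, s k) * c i ∈ R := by
    intro i
    have : (∏ k, s k) * c i = (∏ k ∈ Finset.univ.erase i, s k) * (s i * c i) := by
      rw [← Finset.mul_prod_erase Finset.univ s (Finset.mem_univ i)]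
      ring
    rw [this]
    exact R.mul_mem (R.prod_mem fun k _ => hsR k) (hsc i)
  have hrepr : (fun z => (∏ k, s k) * f z) =
      ∑ i, (fun _ : Z => (∏ k, s k) * c i) * e i := by
    funext z
    rw [← hce, Finset.sum_apply, Finset.sum_apply, Finset.mul_sum]
    refine Finset.sum_congr rfl fun i _ => ?_
    simp only [Pi.smul_apply, Pi.mul_apply, smul_eq_mul]
    ring
  rw [hrepr]
  exact H.sum_mem fun i _ => H.mul_mem (hO.const_mem _ (hcoef i)) (he i)

end Sep

end Fermat.Agent.H14.ORD
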