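/-
helper14 (P-ORD, row ORD-A3 NOSUB), part 4: the abstract theorem `ns_main`.

A connected order `H` of equivariant functions (`NsOrder`) on a finite abelian `p`-group `Z`,
over a base `R = A ∩ K^I` in which every non-unit is divisible by the odd prime `p`:
`Z` has no subquotient `Y' / Y` on which the operators act trivially.
-/
import Fermat.Agent.H14.ORD.NoSubSep

set_option autoImplicit false
set_option linter.unusedVariables false
set_option linter.unusedSectionVars false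
set_option linter.style.haveILetI false

noncomputable section

namespace Fermat.Agent.H14.ORD

open Finset

section Main

variable {K : Type*} [Field K] {Γ : Type*} {Z : Type*} [AddCommGroup Z]
  {I : Set Γ} {φ : Γ → K →+* K} {act : Γ → Z → Z}
  {A : ValuationSubring K} {R : Subring K} {H : Subring (Z → K)}

/-- The values of the `Y`-invariant functions at the points of `Y'` lie in `R`. -/
theorem ns_inv_value_mem (hO : NsOrder A R I φ act H) (Y Y' : AddSubgroup Z)
    (htriv : ∀ σ ∈ I, ∀ z ∈ Y', act σ z - z ∈ Y) {h : Z → K} (hh : h ∈ nsInv H Y) {z : Z}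
    (hz : z ∈ Y') : h z ∈ R := by
  refine (hO.mem_R _).2 ⟨hO.integral h hh.1 z, fun σ hσ => ?_⟩
  rw [← hO.equiv h hh.1 σ hσ z]
  have : act σ z = z + (act σ z - z) := by abel
  rw [this, hh.2 z _ (htriv σ hσ z hz)]

/-- A multiple of the indicator function of `Y` lies in the invariants. -/
theorem ns_exists_indicator [Finite Z] (hO : NsOrder A R I φ act H) (Y : AddSubgroup Z)
    (hYst : ∀ σ ∈ I, ∀ z, act σ z ∈ Y ↔ z ∈ Y) :
    ∃ h ∈ nsInv H Y, h 0 ≠ 0 ∧ ∀ z, z ∉ Y → h z = 0 := by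
  classical
  have hf : NsEquiv I φ act (fun z : Z => if z ∈ Y then (1 : K) else 0) := by
    intro σ hσ z
    beta_reduce
    by_cases hz : z ∈ Y
    · rw [if_pos ((hYst σ hσ z).2 hz), if_pos hz, map_one]
    · rw [if_neg (fun h => hz ((hYst σ hσ z).1 h)), if_neg hz, map_zero]
  obtain ⟨s, hsR, hs0, hsH⟩ := ns_exists_scalar_mem hO _ hf
  refine ⟨_, ⟨hsH, fun z y hy => ?_⟩, ?_, fun z hz => ?_⟩
  · have : z + y ∈ Y ↔ z ∈ Y :=
      ⟨fun h => by simpa using Y.sub_mem h hy, fun h => Y.add_mem h hy⟩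
    by_cases hz : z ∈ Y
    · simp only [if_pos (this.2 hz), if_pos hz]
    · simp only [if_neg (fun h => hz (this.1 h)), if_neg hz]
  · simp only [if_pos Y.zero_mem, mul_one]
    exact hs0
  · simp only [if_neg hz, mul_zero]

/-- **ORD-A3 (abstract form).** -/
theorem ns_main [Finite Z] (p : ℕ) (hp : p.Prime) (hp2 : p ≠ 2)
    (hO : NsOrder A R I φ act H)
    (hU : ∀ r : R, IsUnit r ∨ (p : R) ∣ r)
    (hS : ∀ r : R, (∀ j : ℕ, (p : R) ^ j ∣ r) → r = 0)
    (hp0 : (p : K) ≠ 0)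
    (hconn : ∀ h ∈ H, ∀ z, h z - h 0 ∈ A.nonunits)
    (htors : ∀ z : Z, ∃ n : ℕ, p ^ n • z = 0)
    (Y Y' : AddSubgroup Z) (hYY' : Y ≤ Y')
    (hYst : ∀ σ ∈ I, ∀ z, act σ z ∈ Y ↔ z ∈ Y)
    (htriv : ∀ σ ∈ I, ∀ z ∈ Y', act σ z - z ∈ Y) : Y' ≤ Y := by
  classical
  intro z₁ hz₁
  by_contra hz₁Y
  -- a point of order `p` modulo `Y`
  have hex : ∃ n : ℕ, p ^ n • z₁ ∈ Y := by
    obtain ⟨n, hn⟩ := htors z₁
    exact ⟨n, by rw [hn]; exact Y.zero_mem⟩
  have hn0 : Nat.find hex ≠ 0 := by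
    intro h0
    have := Nat.find_spec hex
    rw [h0, pow_zero, one_smul] at this
    exact hz₁Y this
  obtain ⟨k, hk⟩ := Nat.exists_eq_succ_of_ne_zero hn0
  obtain ⟨z₀, hz₀def⟩ : ∃ z₀ : Z, z₀ = p ^ k • z₁ := ⟨_, rfl⟩
  have hz₀Y : z₀ ∉ Y := by
    rw [hz₀def]
    exact Nat.find_min hex (by rw [hk]; exact Nat.lt_succ_self k)
  have hz₀Y' : z₀ ∈ Y' := by
    rw [hz₀def]
    exact Y'.nsmul_mem hz₁ _
  have hpz₀ : p • z₀ ∈ Y := by
    have := Nat.find_spec hex
    rw [hk, Nat.succ_eq_add_one, pow_succ', mul_smul] at this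
    rw [hz₀def]
    exact this
  haveI : NeZero p := ⟨hp.ne_zero⟩
  haveI : Fact p.Prime := ⟨hp⟩
  have hpt : ∀ k : ZMod p, k.val • z₀ ∈ Y' := fun k => Y'.nsmul_mem hz₀Y' _
  -- addition of multiples, modulo `Y`
  have hadd : ∀ (h : Z → K), h ∈ nsInv H Y → ∀ k k' : ZMod p,
      h ((k + k').val • z₀) = h (k.val • z₀ + k'.val • z₀) := by
    intro h hh k k'
    obtain ⟨q, e1⟩ : ∃ q : ℕ, k.val + k'.val = (k + k').val + p * q := by
      refine ⟨(k.val + k'.val) / p, ?_⟩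
      rw [ZMod.val_add]
      exact (Nat.mod_add_div _ _).symm
    have e2 : k.val • z₀ + k'.val • z₀ = (k + k').val • z₀ + q • (p • z₀) := by
      rw [← add_smul, e1, add_smul, mul_comm, mul_smul]
    rw [e2, hh.2 _ _ (Y.nsmul_mem hpz₀ _)]
  -- the Hopf order on `ZMod p`
  let H' : Subalgebra R (ZMod p → R) :=
    { carrier := {f | ∃ h ∈ nsInv H Y, ∀ k : ZMod p, ((f k : R) : K) = h (k.val • z₀)}
      mul_mem' := by
        rintro f g ⟨h, hh, hf⟩ ⟨h', hh', hg⟩
        exact ⟨h * h', (nsInv H Y).mul_mem hh hh', fun k => by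
          show ((f k * g k : R) : K) = h _ * h' _
          rw [Subring.coe_mul, hf, hg]⟩
      one_mem' := ⟨1, (nsInv H Y).one_mem, fun k => rfl⟩
      add_mem' := by
        rintro f g ⟨h, hh, hf⟩ ⟨h', hh', hg⟩
        exact ⟨h + h', (nsInv H Y).add_mem hh hh', fun k => by
          show ((f k + g k : R) : K) = h _ + h' _
          rw [Subring.coe_add, hf, hg]⟩
      zero_mem' := ⟨0, (nsInv H Y).zero_mem, fun k => rfl⟩
      algebraMap_mem' := fun r =>
        ⟨fun _ => (r : K), ⟨hO.const_mem _ r.2, fun _ _ _ => rfl⟩, fun k => rfl⟩ }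
  have hH' : ∀ f : ZMod p → R, f ∈ H' ↔
      ∃ h ∈ nsInv H Y, ∀ k : ZMod p, ((f k : R) : K) = h (k.val • z₀) := fun f => Iff.rfl
  have hlift : ∀ h ∈ nsInv H Y, ∃ f ∈ H', ∀ k : ZMod p, ((f k : R) : K) = h (k.val • z₀) := by
    intro h hh
    exact ⟨fun k => ⟨h (k.val • z₀), ns_inv_value_mem hO Y Y' htriv hh (hpt k)⟩,
      ⟨h, hh, fun k => rfl⟩, fun k => rfl⟩
  -- separation
  have hsep : ∀ g : ZMod p, g ≠ 0 → ∃ f ∈ H', f g ≠ f 0 := by
    intro g hg
    have hgY : g.val • z₀ ∉ Y := by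
      intro hmem
      have hgv : g.val ≠ 0 := fun h0 => hg ((ZMod.val_eq_zero g).1 h0)
      have hcop : Nat.Coprime p g.val :=
        (Nat.Prime.coprime_iff_not_dvd hp).2
          (Nat.not_dvd_of_pos_of_lt (Nat.pos_of_ne_zero hgv) (ZMod.val_lt g))
      have hb := Nat.gcd_eq_gcd_ab p g.val
      rw [hcop.gcd_eq_one] at hb
      apply hz₀Y
      have hb' : (1 : ℤ) = (p : ℤ) * Nat.gcdA p g.val + (g.val : ℤ) * Nat.gcdB p g.val := by
        rw [← hb]
        rfl
      have e : z₀ = (Nat.gcdA p g.val) • (p • z₀) + (Nat.gcdB p g.val) • (g.val • z₀) :=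
        calc z₀ = (1 : ℤ) • z₀ := (one_zsmul _).symm
          _ = ((p : ℤ) * Nat.gcdA p g.val + (g.val : ℤ) * Nat.gcdB p g.val) • z₀ := by
              rw [← hb']
          _ = (Nat.gcdA p g.val) • ((p : ℤ) • z₀) + (Nat.gcdB p g.val) • ((g.val : ℤ) • z₀) := by
              rw [add_smul, mul_comm (p : ℤ), mul_comm (g.val : ℤ), mul_smul, mul_smul]
          _ = (Nat.gcdA p g.val) • (p • z₀) + (Nat.gcdB p g.val) • (g.val • z₀) := by
              rw [natCast_zsmul, natCast_zsmul]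
      rw [e]
      exact Y.add_mem (Y.zsmul_mem hpz₀ _) (Y.zsmul_mem hmem _)
    obtain ⟨h, hh, hh0, hhY⟩ := ns_exists_indicator hO Y hYst
    obtain ⟨f, hf, hfh⟩ := hlift h hh
    refine ⟨f, hf, fun e => hh0 ?_⟩
    have e1 := hfh g
    have e2 := hfh 0
    rw [ZMod.val_zero, zero_smul] at e2
    rw [← e2, ← e, e1, hhY _ hgY]
  -- comultiplication
  have hcomul : Fermat.Agent.H4.ORD.ComulClosed H' := by
    intro f hf
    obtain ⟨h, hh, hfh⟩ := hf
    obtain ⟨n, a, b, ha, hb, hab⟩ := hO.comul h hh.1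
    obtain ⟨n', a', b', ha', hb', hab'⟩ := ns_inv_comul hO Y h hh.2 n a b ha hb hab
    choose fa hfa hfa' using fun i => hlift (a' i) (ha' i)
    choose fb hfb hfb' using fun i => hlift (b' i) (hb' i)
    refine ⟨n', fa, fb, hfa, hfb, fun k k' => ?_⟩
    apply Subtype.ext
    rw [hfh, hadd h hh, hab']
    have h2 := map_sum R.subtype (fun i => fa i k * fb i k') Finset.univ
    rw [show ((∑ i, fa i k * fb i k' : R) : K) = R.subtype (∑ i, fa i k * fb i k') from rfl, h2]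
    refine Finset.sum_congr rfl fun i _ => ?_
    rw [← hfa', ← hfb']
    rfl
  have hT : ∀ r : R, (p : R) * r = 0 → r = 0 := by
    intro r hr
    have hpR : (p : R) ≠ 0 := by
      intro h0
      apply hp0
      have := congrArg (fun x : R => (x : K)) h0
      simpa using this
    exact (mul_eq_zero.1 hr).resolve_left hpR
  have htop := Fermat.Agent.H4.ORD.hopfOrder_eq_top p hp hp2 hU hS hT (Nat.card_zmod p) H'
    hsep hcomul
  -- the indicator function of `0`
  have hmem : (Pi.single (0 : ZMod p) (1 : R) : ZMod p → R) ∈ H' := by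
    rw [htop]
    trivial
  obtain ⟨h, hh, hfh⟩ := hmem
  haveI : Fact (1 < p) := ⟨hp.one_lt⟩
  have e0 := hfh 0
  have e1 := hfh 1
  rw [ZMod.val_zero, zero_smul, Pi.single_eq_same] at e0
  rw [ZMod.val_one, one_smul, Pi.single_eq_of_ne one_ne_zero] at e1
  have hc := hconn h hh.1 z₀
  rw [← e0, ← e1] at hc
  rw [ValuationSubring.mem_nonunits_iff] at hc
  simp at hc

end Main

end Fermat.Agent.H14.ORD
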