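/-
helper14 (P-ORD, row ORD-A3 NOSUB): THE BRIDGE  CONN  ==>  contract (b) of
`OrdinaryTorsionStatement`.

`IsConnOrder A W Hu` : `Hu` is a connected order of functions on the subgroup `W` of a Galois
module `J` at the place `A` (only the restrictions of the functions to `W` matter):
constants of `unrInt A`, integral values, inertia equivariant, point separating, closed under
comultiplication, and connected (`h z - h 0` is a non-unit of `A`).
NO stability under the decomposition group, NO finiteness of `Hu`, NO `G_ℚ`-stability of `W`.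

`noTrivSubquot_of_connOrder` : if `W` is finite, inertia stable and killed by powers of the odd
prime `p`, a connected order on `W` forces `NoTrivSubquot I_A W`.
-/
import Fermat.Agent.H14.ORD.NoSubMain
import Fermat.Agent.H14.ORD.Interfaces
import Fermat.Agent.H53.ORD.UnrUniformizer

set_option autoImplicit false
set_option linter.unusedVariables false
set_option linter.unusedSectionVars false
set_option linter.style.haveILetI false

noncomputable section

namespace Fermat.Agent.H14.ORD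

open Fermat.Agent.H10.FF Fermat.Agent.H72.FF

/-- A connected order of functions on the subgroup `W` at the place `A`. -/
structure IsConnOrder (A : ValuationSubring Qb) {J : Type} [AddCommGroup J]
    [DistribMulAction GQ J] (W : AddSubgroup J) (Hu : Subring (J → Qb)) : Prop where
  const_mem : ∀ c ∈ unrInt A, (fun _ : J => c) ∈ Hu
  integral : ∀ h ∈ Hu, ∀ z ∈ W, h z ∈ A
  inertia_equiv : ∀ h ∈ Hu, ∀ σ ∈ A.inertiaSubgroupIn ℚ, ∀ z ∈ W, h (σ • z) = σ (h z)
  separates : ∀ z ∈ W, ∀ z' ∈ W, z ≠ z' → ∃ h ∈ Hu, h z ≠ h z'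
  comul_mem : ∀ h ∈ Hu, ∃ (n : ℕ) (a b : Fin n → J → Qb),
    (∀ i, a i ∈ Hu) ∧ (∀ i, b i ∈ Hu) ∧ ∀ z ∈ W, ∀ z' ∈ W, h (z + z') = ∑ i, a i z * b i z'
  connected : ∀ h ∈ Hu, ∀ z ∈ W, h z - h 0 ∈ A.nonunits

/-- Restriction of functions to a subgroup. -/
def nsRestr {J : Type} [AddCommGroup J] (W : AddSubgroup J) : (J → Qb) →+* (W → Qb) where
  toFun f := fun z => f z
  map_one' := rfl
  map_mul' _ _ := rfl
  map_zero' := rfl
  map_add' _ _ := rfl

@[simp] theorem nsRestr_apply {J : Type} [AddCommGroup J] (W : AddSubgroup J) (f : J → Qb)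
    (z : W) : nsRestr W f z = f z := rfl

/-- The operators on `W`: the Galois action of the inertia group (and the identity outside). -/
def nsAct (A : ValuationSubring Qb) {J : Type} [AddCommGroup J] [DistribMulAction GQ J]
    (W : AddSubgroup J) (hst : ∀ σ ∈ A.inertiaSubgroupIn ℚ, ∀ x ∈ W, σ • x ∈ W) :
    GQ → W → W := by
  classical
  exact fun σ z => if h : σ ∈ A.inertiaSubgroupIn ℚ then ⟨σ • (z : J), hst σ h z z.2⟩ else z

theorem nsAct_coe (A : ValuationSubring Qb) {J : Type} [AddCommGroup J] [DistribMulAction GQ J]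
    (W : AddSubgroup J) (hst : ∀ σ ∈ A.inertiaSubgroupIn ℚ, ∀ x ∈ W, σ • x ∈ W)
    {σ : GQ} (hσ : σ ∈ A.inertiaSubgroupIn ℚ) (z : W) :
    ((nsAct A W hst σ z : W) : J) = σ • (z : J) := by
  classical
  unfold nsAct
  rw [dif_pos hσ]

/-- The ring homomorphism underlying a Galois automorphism. -/
def nsPhi : GQ → Qb →+* Qb := fun σ => (σ : Qb ≃ₐ[ℚ] Qb).toAlgHom.toRingHom

@[simp] theorem nsPhi_apply (σ : GQ) (x : Qb) : nsPhi σ x = σ x := rfl

/-- **ORD-A3 NOSUB.**  A connected order on a finite inertia-stable `p`-group `W` (`p` odd)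
forces `W` to have no unramified subquotient. -/
theorem noTrivSubquot_of_connOrder {p : ℕ} [Fact p.Prime] (hp2 : p ≠ 2)
    {A : ValuationSubring Qb} (hP : PlaceFacts p A)
    {J : Type} [AddCommGroup J] [DistribMulAction GQ J] (W : AddSubgroup J) [Finite W]
    (hst : ∀ σ ∈ A.inertiaSubgroupIn ℚ, ∀ x ∈ W, σ • x ∈ W)
    (htors : ∀ x ∈ W, ∃ n : ℕ, p ^ n • x = 0)
    (Hu : Subring (J → Qb)) (hHu : IsConnOrder A W Hu) :
    NoTrivSubquot (A.inertiaSubgroupIn ℚ : Set GQ) W := by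
  classical
  have hp : p.Prime := Fact.out
  intro Y Y' hYY' hY'W hYst htriv
  -- the order on the subtype
  have hO : NsOrder A (unrInt A) (A.inertiaSubgroupIn ℚ : Set GQ) nsPhi (nsAct A W hst)
      (Hu.map (nsRestr W)) := by
    refine ⟨fun x => mem_unrInt, fun σ hσ w => ?_, fun c hc => ?_, ?_, ?_, ?_, ?_⟩
    · have hσ' : σ⁻¹ ∈ A.inertiaSubgroupIn ℚ := (A.inertiaSubgroupIn ℚ).inv_mem hσ
      refine ⟨⟨σ⁻¹ • (w : J), hst _ hσ' w w.2⟩, Subtype.ext ?_⟩
      rw [nsAct_coe A W hst hσ]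
      exact smul_inv_smul σ (w : J)
    · exact ⟨_, hHu.const_mem c hc, rfl⟩
    · rintro _ ⟨h, hh, rfl⟩ z
      exact hHu.integral h hh z z.2
    · rintro _ ⟨h, hh, rfl⟩ σ hσ z
      show h ((nsAct A W hst σ z : W) : J) = σ (h z)
      rw [nsAct_coe A W hst hσ]
      exact hHu.inertia_equiv h hh σ hσ z z.2
    · intro z z' hzz'
      obtain ⟨h, hh, hne⟩ := hHu.separates z z.2 z' z'.2 (fun e => hzz' (Subtype.ext e))
      exact ⟨_, ⟨h, hh, rfl⟩, hne⟩
    · rintro _ ⟨h, hh, rfl⟩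
      obtain ⟨n, a, b, ha, hb, hab⟩ := hHu.comul_mem h hh
      exact ⟨n, fun i => nsRestr W (a i), fun i => nsRestr W (b i), fun i => ⟨_, ha i, rfl⟩,
        fun i => ⟨_, hb i, rfl⟩, fun z z' => hab z z.2 z' z'.2⟩
  have hU : ∀ r : unrInt A, IsUnit r ∨ ((p : ℕ) : unrInt A) ∣ r :=
    Fermat.Agent.H53.unrInt_isUnit_or_dvd hP
  have hS : ∀ r : unrInt A, (∀ j : ℕ, ((p : ℕ) : unrInt A) ^ j ∣ r) → r = 0 :=
    Fermat.Agent.H53.unrInt_eq_zero_of_forall_dvd hP.liesOver
  have hp0 : ((p : ℕ) : Qb) ≠ 0 := by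
    exact_mod_cast hp.ne_zero
  have hconn : ∀ h ∈ Hu.map (nsRestr W), ∀ z : W, h z - h 0 ∈ A.nonunits := by
    rintro _ ⟨h, hh, rfl⟩ z
    exact hHu.connected h hh z z.2
  have htors' : ∀ z : W, ∃ n : ℕ, p ^ n • z = 0 := by
    intro z
    obtain ⟨n, hn⟩ := htors z z.2
    exact ⟨n, Subtype.ext hn⟩
  have hmain := ns_main (Z := W) p hp hp2 hO hU hS hp0 hconn htors'
    (Y.addSubgroupOf W) (Y'.addSubgroupOf W)
    (fun z hz => hYY' hz)
    (fun σ hσ z => by
      rw [AddSubgroup.mem_addSubgroupOf, AddSubgroup.mem_addSubgroupOf, nsAct_coe A W hst hσ]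
      refine ⟨fun h => ?_, fun h => hYst σ hσ _ h⟩
      have hσ' : σ⁻¹ ∈ A.inertiaSubgroupIn ℚ := (A.inertiaSubgroupIn ℚ).inv_mem hσ
      have := hYst σ⁻¹ hσ' _ h
      rwa [inv_smul_smul] at this)
    (fun σ hσ z hz => by
      rw [AddSubgroup.mem_addSubgroupOf] at hz ⊢
      rw [AddSubgroup.coe_sub, nsAct_coe A W hst hσ]
      exact htriv σ hσ _ hz)
  intro y hy
  have := hmain (show (⟨y, hY'W hy⟩ : W) ∈ Y'.addSubgroupOf W from hy)
  exact this

end Fermat.Agent.H14.ORD
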