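/-
helper14 (P-ORD, row ORD-A3 NOSUB), part 1: Galois descent for orders of equivariant functions
(Mathlib only).

`K` a field with operators `φ σ` (`σ ∈ I`), `Z` a set with operators `act σ` (surjective for
`σ ∈ I`), `A` a valuation subring of `K`.  For finite families of equivariant functions
`e i : Z → K`:

* `ns_relation_twist`     : relations are stable under the operators;
* `ns_coeff_fixed`        : the coefficients of an equivariant function with respect to a
                            linearly independent equivariant family are fixed by the operators;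
* `ns_exists_pivot_relation` : a linearly dependent equivariant family satisfies a relation
                            with coefficients in `A`, fixed by the operators, one of them `1`.
-/
import Mathlib

set_option autoImplicit false
set_option linter.unusedVariables false
set_option linter.unusedSectionVars false

noncomputable section

namespace Fermat.Agent.H14.ORD

open Finset

section Descent

variable {K : Type*} [Field K] {Γ : Type*} {Z : Type*}
  (I : Set Γ) (φ : Γ → K →+* K) (act : Γ → Z → Z)

/-- `f` is equivariant for the operators indexed by `I`. -/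
def NsEquiv (f : Z → K) : Prop := ∀ σ ∈ I, ∀ z, f (act σ z) = φ σ (f z)

variable {I φ act}

theorem ns_relation_twist (hsurj : ∀ σ ∈ I, Function.Surjective (act σ))
    {n : ℕ} (e : Fin n → Z → K) (he : ∀ i, NsEquiv I φ act (e i))
    (c : Fin n → K) (hc : ∑ i, c i • e i = 0) {σ : Γ} (hσ : σ ∈ I) :
    ∑ i, φ σ (c i) • e i = 0 := by
  funext w
  obtain ⟨z, rfl⟩ := hsurj σ hσ w
  have h1 : (∑ i, c i • e i) z = 0 := by rw [hc]; rfl
  simp only [Finset.sum_apply, Pi.smul_apply, smul_eq_mul, Pi.zero_apply] at h1 ⊢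
  have h2 := congrArg (φ σ) h1
  rw [map_sum, map_zero] at h2
  rw [← h2]
  refine Finset.sum_congr rfl fun i _ => ?_
  rw [map_mul, he i σ hσ z]

theorem ns_coeff_fixed (hsurj : ∀ σ ∈ I, Function.Surjective (act σ))
    {n : ℕ} (e : Fin n → Z → K) (he : ∀ i, NsEquiv I φ act (e i))
    (hli : LinearIndependent K e) (c : Fin n → K)
    (hf : NsEquiv I φ act (∑ i, c i • e i)) {σ : Γ} (hσ : σ ∈ I) (i : Fin n) :
    φ σ (c i) = c i := by
  have key : ∑ i, (φ σ (c i) - c i) • e i = 0 := by
    funext w
    obtain ⟨z, rfl⟩ := hsurj σ hσ w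
    have h1 := hf σ hσ z
    simp only [Finset.sum_apply, Pi.smul_apply, smul_eq_mul, Pi.zero_apply] at h1 ⊢
    rw [map_sum] at h1
    have h3 : ∑ i, (φ σ (c i) - c i) * e i (act σ z) =
        ∑ i, φ σ (c i * e i z) - ∑ i, c i * e i (act σ z) := by
      rw [← Finset.sum_sub_distrib]
      refine Finset.sum_congr rfl fun i _ => ?_
      rw [map_mul, he i σ hσ z]
      ring
    rw [h3, ← h1, sub_self]
  have := Fintype.linearIndependent_iff.1 hli _ key i
  exact sub_eq_zero.1 this

/-- The support of a coefficient vector. -/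
def nsSupp {n : ℕ} (c : Fin n → K) : Finset (Fin n) := by
  classical
  exact Finset.univ.filter fun i => c i ≠ 0

theorem mem_nsSupp {n : ℕ} (c : Fin n → K) (i : Fin n) : i ∈ nsSupp c ↔ c i ≠ 0 := by
  classical
  simp [nsSupp]

theorem ns_exists_pivot_relation (A : ValuationSubring K)
    (hsurj : ∀ σ ∈ I, Function.Surjective (act σ))
    {n : ℕ} (e : Fin n → Z → K) (he : ∀ i, NsEquiv I φ act (e i))
    (hdep : ¬ LinearIndependent K e) :
    ∃ (i₁ : Fin n) (μ : Fin n → K), μ i₁ = 1 ∧ (∀ i, μ i ∈ A) ∧
      (∀ σ ∈ I, ∀ i, φ σ (μ i) = μ i) ∧ ∑ i, μ i • e i = 0 := by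
  classical
  -- a relation with minimal support
  have hex : ∃ k : ℕ, ∃ c : Fin n → K, ∑ i, c i • e i = 0 ∧ (∃ i, c i ≠ 0) ∧
      (nsSupp c).card = k := by
    obtain ⟨c, hc, i, hi⟩ := Fintype.not_linearIndependent_iff.1 hdep
    exact ⟨_, c, hc, ⟨i, hi⟩, rfl⟩
  obtain ⟨c, hc, ⟨i₀, hi₀⟩, hcard⟩ := Nat.find_spec hex
  have hmin : ∀ d : Fin n → K, ∑ i, d i • e i = 0 → (∃ i, d i ≠ 0) →
      Nat.find hex ≤ (nsSupp d).card := fun d hd hd' =>
    Nat.find_min' hex ⟨d, hd, hd', rfl⟩
  -- normalise at `i₀`
  set c' : Fin n → K := fun i => c i / c i₀ with hc'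
  have hc'rel : ∑ i, c' i • e i = 0 := by
    have : ∑ i, c' i • e i = (c i₀)⁻¹ • ∑ i, c i • e i := by
      rw [Finset.smul_sum]
      refine Finset.sum_congr rfl fun i _ => ?_
      rw [smul_smul, hc']
      beta_reduce
      rw [div_eq_inv_mul]
    rw [this, hc, smul_zero]
  have hc'i₀ : c' i₀ = 1 := div_self hi₀
  have hsupp : nsSupp c' = nsSupp c := by
    ext i
    rw [mem_nsSupp, mem_nsSupp, hc']
    simp [hi₀]
  -- the normalised relation is fixed by the operators
  have hfix : ∀ σ ∈ I, ∀ i, φ σ (c' i) = c' i := by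
    intro σ hσ
    by_contra hne
    push Not at hne
    obtain ⟨j, hj⟩ := hne
    set d : Fin n → K := fun i => φ σ (c' i) - c' i with hd
    have hdrel : ∑ i, d i • e i = 0 := by
      have h1 := ns_relation_twist hsurj e he c' hc'rel hσ
      have : ∑ i, d i • e i = ∑ i, φ σ (c' i) • e i - ∑ i, c' i • e i := by
        rw [← Finset.sum_sub_distrib]
        exact Finset.sum_congr rfl fun i _ => sub_smul _ _ _
      rw [this, h1, hc'rel, sub_zero]
    have hdne : ∃ i, d i ≠ 0 := ⟨j, sub_ne_zero.2 hj⟩
    have hlt : (nsSupp d).card < (nsSupp c').card := by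
      apply Finset.card_lt_card
      refine ⟨fun i hi => ?_, fun hsub => ?_⟩
      · rw [mem_nsSupp] at hi ⊢
        intro h0
        apply hi
        rw [hd]
        simp only
        rw [h0, map_zero, sub_zero]
      · have h1 : i₀ ∈ nsSupp c' := by
          rw [mem_nsSupp, hc'i₀]
          exact one_ne_zero
        have h2 := hsub h1
        rw [mem_nsSupp] at h2
        apply h2
        rw [hd]
        simp only
        rw [hc'i₀, map_one, sub_self]
    have := hmin d hdrel hdne
    rw [hsupp, hcard] at hlt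
    omega
  -- the pivot
  have hne : (nsSupp c').Nonempty := ⟨i₀, by rw [mem_nsSupp, hc'i₀]; exact one_ne_zero⟩
  obtain ⟨i₁, hi₁, hmax⟩ := Finset.exists_max_image (nsSupp c') (fun i => A.valuation (c' i)) hne
  rw [mem_nsSupp] at hi₁
  refine ⟨i₁, fun i => c' i / c' i₁, div_self hi₁, fun i => ?_, fun σ hσ i => ?_, ?_⟩
  · beta_reduce
    by_cases h0 : c' i = 0
    · rw [h0, zero_div]
      exact A.zero_mem
    · rw [← A.valuation_le_one_iff, map_div₀]
      have h1 := hmax i ((mem_nsSupp c' i).2 h0)
      have h2 : A.valuation (c' i₁) ≠ 0 := (map_ne_zero _).2 hi₁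
      exact div_le_one_of_le₀ h1 zero_le
  · beta_reduce
    rw [map_div₀, hfix σ hσ i, hfix σ hσ i₁]
  · have : ∑ i, (c' i / c' i₁) • e i = (c' i₁)⁻¹ • ∑ i, c' i • e i := by
      rw [Finset.smul_sum]
      refine Finset.sum_congr rfl fun i _ => ?_
      rw [smul_smul, div_eq_inv_mul]
    rw [this, hc'rel, smul_zero]

end Descent

end Fermat.Agent.H14.ORD
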