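/-
helper14 (P-ORD, row ORD-A3 NOSUB), part 2: the abstract theorem (Mathlib + the Hopf lemma of
helper4).

An order `H` of equivariant `A`-valued functions on a finite abelian `p`-group `Z` (`NsOrder`),
connected (`h z - h 0` a non-unit of `A`), over an unramified base `R = A ∩ K^I` with uniformiser
`p` odd.  Then `Z` has no subquotient `Y' / Y` with trivial action of the operators
(`ns_main`).

Steps: the `Y`-invariants of `H` are closed under comultiplication (`ns_inv_comul`: a
decomposition of minimal length has linearly independent tensor factors, by Galois descent, and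
linearly independent tensor factors of an invariant function are invariant); the invariants
separate the cosets of `Y` (`ns_exists_scalar_mem` applied to the indicator function of `Y`);
on a cyclic subquotient of order `p` the invariants form a Hopf order of `R`-valued functions,
which contains the indicator function of `0` by the Hopf lemma - a contradiction with
connectedness.
-/
import Fermat.Agent.H14.ORD.NoSubCore
import Fermat.Agent.H4.ORD.HopfLemma

set_option autoImplicit false
set_option linter.unusedVariables false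
set_option linter.unusedSectionVars false

noncomputable section

namespace Fermat.Agent.H14.ORD

open Finset

section Order

variable {K : Type*} [Field K] {Γ : Type*} {Z : Type*} [AddCommGroup Z]
  {I : Set Γ} {φ : Γ → K →+* K} {act : Γ → Z → Z}

/-- An order of equivariant functions on `Z` over `R = A ∩ K^I`. -/
structure NsOrder (A : ValuationSubring K) (R : Subring K) (I : Set Γ) (φ : Γ → K →+* K)
    (act : Γ → Z → Z) (H : Subring (Z → K)) : Prop where
  mem_R : ∀ x, x ∈ R ↔ x ∈ A ∧ ∀ σ ∈ I, φ σ x = x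
  surj : ∀ σ ∈ I, Function.Surjective (act σ)
  const_mem : ∀ c ∈ R, (fun _ : Z => c) ∈ H
  integral : ∀ h ∈ H, ∀ z, h z ∈ A
  equiv : ∀ h ∈ H, NsEquiv I φ act h
  separates : ∀ z z' : Z, z ≠ z' → ∃ h ∈ H, h z ≠ h z'
  comul : ∀ h ∈ H, ∃ (n : ℕ) (a b : Fin n → Z → K), (∀ i, a i ∈ H) ∧ (∀ i, b i ∈ H) ∧
    ∀ z z', h (z + z') = ∑ i, a i z * b i z'

/-- The functions of `H` which are invariant under the translations by `Y`. -/
def nsInv (H : Subring (Z → K)) (Y : AddSubgroup Z) : Subring (Z → K) where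
  carrier := {h | h ∈ H ∧ ∀ z, ∀ y ∈ Y, h (z + y) = h z}
  mul_mem' := by
    rintro a b ⟨ha, ha'⟩ ⟨hb, hb'⟩
    exact ⟨H.mul_mem ha hb, fun z y hy => by
      show a (z + y) * b (z + y) = a z * b z
      rw [ha' z y hy, hb' z y hy]⟩
  one_mem' := ⟨H.one_mem, fun _ _ _ => rfl⟩
  add_mem' := by
    rintro a b ⟨ha, ha'⟩ ⟨hb, hb'⟩
    exact ⟨H.add_mem ha hb, fun z y hy => by
      show a (z + y) + b (z + y) = a z + b z
      rw [ha' z y hy, hb' z y hy]⟩
  zero_mem' := ⟨H.zero_mem, fun _ _ _ => rfl⟩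
  neg_mem' := by
    rintro a ⟨ha, ha'⟩
    exact ⟨H.neg_mem ha, fun z y hy => by
      show -a (z + y) = -a z
      rw [ha' z y hy]⟩

theorem mem_nsInv {H : Subring (Z → K)} {Y : AddSubgroup Z} {h : Z → K} :
    h ∈ nsInv H Y ↔ h ∈ H ∧ ∀ z, ∀ y ∈ Y, h (z + y) = h z := Iff.rfl

variable {A : ValuationSubring K} {R : Subring K} {H : Subring (Z → K)}

/-- Shortening a decomposition along a relation with pivot `1` among the second factors. -/
theorem ns_shorten (hconst : ∀ c ∈ R, (fun _ : Z => c) ∈ H) {m : ℕ} (h : Z → K)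
    (a b : Fin (m + 1) → Z → K) (ha : ∀ i, a i ∈ H) (hb : ∀ i, b i ∈ H)
    (hab : ∀ z z', h (z + z') = ∑ i, a i z * b i z')
    (i₁ : Fin (m + 1)) (μ : Fin (m + 1) → K) (hμ1 : μ i₁ = 1) (hμR : ∀ i, μ i ∈ R)
    (hrel : ∑ i, μ i • b i = 0) :
    ∃ a' b' : Fin m → Z → K, (∀ i, a' i ∈ H) ∧ (∀ i, b' i ∈ H) ∧
      ∀ z z', h (z + z') = ∑ i, a' i z * b' i z' := by
  refine ⟨fun j => a (i₁.succAbove j) - (fun _ : Z => μ (i₁.succAbove j)) * a i₁,
    fun j => b (i₁.succAbove j),
    fun j => H.sub_mem (ha _) (H.mul_mem (hconst _ (hμR _)) (ha _)), fun j => hb _, ?_⟩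
  intro z z'
  have h1 : (∑ i, μ i • b i) z' = 0 := by rw [hrel]; rfl
  simp only [Finset.sum_apply, Pi.smul_apply, smul_eq_mul] at h1
  rw [Fin.sum_univ_succAbove _ i₁, hμ1, one_mul] at h1
  have h2 : b i₁ z' = -∑ j, μ (i₁.succAbove j) * b (i₁.succAbove j) z' :=
    eq_neg_of_add_eq_zero_left h1
  rw [hab z z', Fin.sum_univ_succAbove _ i₁, h2]
  simp only [Pi.sub_apply, Pi.mul_apply]
  rw [mul_neg, Finset.mul_sum, ← Finset.sum_neg_distrib, ← Finset.sum_add_distrib]
  refine Finset.sum_congr rfl fun j _ => ?_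
  ring

/-- Linearly independent second factors force invariant first factors. -/
theorem ns_inv_of_li {n : ℕ} (Y : AddSubgroup Z) (h : Z → K)
    (hinv : ∀ z, ∀ y ∈ Y, h (z + y) = h z) (a b : Fin n → Z → K)
    (hab : ∀ z z', h (z + z') = ∑ i, a i z * b i z') (hli : LinearIndependent K b)
    (i : Fin n) (z : Z) (y : Z) (hy : y ∈ Y) : a i (z + y) = a i z := by
  have key : ∑ i, (a i (z + y) - a i z) • b i = 0 := by
    funext z'
    simp only [Finset.sum_apply, Pi.smul_apply, smul_eq_mul, Pi.zero_apply]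
    have e1 : ∑ i, (a i (z + y) - a i z) * b i z' =
        ∑ i, a i (z + y) * b i z' - ∑ i, a i z * b i z' := by
      rw [← Finset.sum_sub_distrib]
      exact Finset.sum_congr rfl fun i _ => sub_mul _ _ _
    rw [e1, ← hab, ← hab]
    have : z + y + z' = z + z' + y := by abel
    rw [this, hinv _ y hy, sub_self]
  exact sub_eq_zero.1 (Fintype.linearIndependent_iff.1 hli _ key i)

/-- **The invariants are closed under comultiplication.** -/
theorem ns_inv_comul (hO : NsOrder A R I φ act H) (Y : AddSubgroup Z) (h : Z → K)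
    (hinv : ∀ z, ∀ y ∈ Y, h (z + y) = h z) :
    ∀ (n : ℕ) (a b : Fin n → Z → K), (∀ i, a i ∈ H) → (∀ i, b i ∈ H) →
      (∀ z z', h (z + z') = ∑ i, a i z * b i z') →
      ∃ (n' : ℕ) (a' b' : Fin n' → Z → K), (∀ i, a' i ∈ nsInv H Y) ∧
        (∀ i, b' i ∈ nsInv H Y) ∧ ∀ z z', h (z + z') = ∑ i, a' i z * b' i z' := by
  have hR : ∀ μ : K, μ ∈ A → (∀ σ ∈ I, φ σ μ = μ) → μ ∈ R := fun μ h1 h2 =>
    (hO.mem_R μ).2 ⟨h1, h2⟩
  intro n
  induction n with
  | zero =>
    intro a b ha hb hab
    exact ⟨0, a, b, fun i => i.elim0, fun i => i.elim0, hab⟩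
  | succ m ih =>
    intro a b ha hb hab
    have hswap : ∀ z z', h (z + z') = ∑ i, b i z * a i z' := by
      intro z z'
      rw [add_comm, hab z' z]
      exact Finset.sum_congr rfl fun i _ => mul_comm _ _
    by_cases hlb : LinearIndependent K b
    · by_cases hla : LinearIndependent K a
      · exact ⟨m + 1, a, b,
          fun i => ⟨ha i, fun z y hy => ns_inv_of_li Y h hinv a b hab hlb i z y hy⟩,
          fun i => ⟨hb i, fun z y hy => ns_inv_of_li Y h hinv b a hswap hla i z y hy⟩, hab⟩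
      · obtain ⟨i₁, μ, hμ1, hμA, hμI, hrel⟩ :=
          ns_exists_pivot_relation A hO.surj a (fun i => hO.equiv _ (ha i)) hla
        obtain ⟨a', b', ha', hb', hab'⟩ := ns_shorten hO.const_mem h b a hb ha hswap i₁ μ hμ1
          (fun i => hR _ (hμA i) (fun σ hσ => hμI σ hσ i)) hrel
        exact ih a' b' ha' hb' hab'
    · obtain ⟨i₁, μ, hμ1, hμA, hμI, hrel⟩ :=
        ns_exists_pivot_relation A hO.surj b (fun i => hO.equiv _ (hb i)) hlb
      obtain ⟨a', b', ha', hb', hab'⟩ := ns_shorten hO.const_mem h a b ha hb hab i₁ μ hμ1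
        (fun i => hR _ (hμA i) (fun σ hσ => hμI σ hσ i)) hrel
      exact ih a' b' ha' hb' hab'

end Order

end Fermat.Agent.H14.ORD
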