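/-
helper14 (P-ORD, row ORD-A3 NOSUB): the final adapters.

* `noTrivSubquot_of_subtypeOrder` : the same as `noTrivSubquot_of_connOrder` for an order of
  functions on the SUBTYPE `W` (as produced by the P-FF closure construction), with any
  operators `act σ` on `W` which are the Galois action for `σ` in the inertia group;
* `OrdinaryOrderStatement N p` : the geometric contract in the form "connected order";
* `ordinaryTorsion_of_order` : `OrdinaryOrderStatement N p → OrdinaryTorsionStatement N p`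
  (the input of `Fermat.Agent.H14.ORD.s33_of_ordinaryTorsion`).
-/
import Fermat.Agent.H14.ORD.NoSub
import Fermat.Agent.H72.FF.Assembly

set_option autoImplicit false
set_option linter.unusedVariables false
set_option linter.unusedSectionVars false
set_option linter.style.haveILetI false

noncomputable section

namespace Fermat.Agent.H14.ORD

open Fermat.Agent.H10.FF Fermat.Agent.H72.FF ModularCurve

/-- A connected order of functions on the subtype `W`. -/
structure IsConnSubtypeOrder (A : ValuationSubring Qb) {J : Type} [AddCommGroup J]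
    [DistribMulAction GQ J] (W : AddSubgroup J) (Hu : Subring (W → Qb)) : Prop where
  const_mem : ∀ c ∈ unrInt A, (fun _ : W => c) ∈ Hu
  integral : ∀ h ∈ Hu, ∀ z : W, h z ∈ A
  inertia_equiv : ∀ h ∈ Hu, ∀ σ ∈ A.inertiaSubgroupIn ℚ, ∀ z z' : W,
    (z' : J) = σ • (z : J) → h z' = σ (h z)
  separates : ∀ z z' : W, z ≠ z' → ∃ h ∈ Hu, h z ≠ h z'
  comul_mem : ∀ h ∈ Hu, ∃ (n : ℕ) (a b : Fin n → W → Qb),
    (∀ i, a i ∈ Hu) ∧ (∀ i, b i ∈ Hu) ∧ ∀ z z' : W, h (z + z') = ∑ i, a i z * b i z'
  connected : ∀ h ∈ Hu, ∀ z : W, h z - h 0 ∈ A.nonunits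

/-- An unramified Hopf order in the sense of P-FF (`IsUnrHopfOrder`, for operators `act` which
are the Galois action on the inertia group) which is connected is a connected order. -/
theorem isConnSubtypeOrder_of_unrHopfOrder {A : ValuationSubring Qb} {J : Type}
    [AddCommGroup J] [DistribMulAction GQ J] (W : AddSubgroup J) (act : GQ → W → W)
    (hact : ∀ σ ∈ A.inertiaSubgroupIn ℚ, ∀ z : W, ((act σ z : W) : J) = σ • (z : J))
    (Hu : Subring (W → Qb)) (hHu : IsUnrHopfOrder A act Hu)
    (hconn : ∀ h ∈ Hu, ∀ z : W, h z - h 0 ∈ A.nonunits) : IsConnSubtypeOrder A W Hu where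
  const_mem := hHu.const_mem
  integral := hHu.integral
  inertia_equiv := fun h hh σ hσ z z' e => by
    have : z' = act σ z := Subtype.ext (e.trans (hact σ hσ z).symm)
    rw [this]
    exact hHu.inertia_equiv h hh σ hσ z
  separates := hHu.separates
  comul_mem := hHu.comul_mem
  connected := hconn

/-- **ORD-A3 NOSUB**, subtype form. -/
theorem noTrivSubquot_of_subtypeOrder {p : ℕ} [Fact p.Prime] (hp2 : p ≠ 2)
    {A : ValuationSubring Qb} (hP : PlaceFacts p A)
    {J : Type} [AddCommGroup J] [DistribMulAction GQ J] (W : AddSubgroup J) [Finite W]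
    (hst : ∀ σ ∈ A.inertiaSubgroupIn ℚ, ∀ x ∈ W, σ • x ∈ W)
    (htors : ∀ x ∈ W, ∃ n : ℕ, p ^ n • x = 0)
    (Hu : Subring (W → Qb)) (hHu : IsConnSubtypeOrder A W Hu) :
    NoTrivSubquot (A.inertiaSubgroupIn ℚ : Set GQ) W := by
  refine noTrivSubquot_of_connOrder hp2 hP W hst htors (Hu.comap (nsRestr W)) ?_
  refine ⟨fun c hc => hHu.const_mem c hc, fun h hh z hz => hHu.integral _ hh ⟨z, hz⟩,
    fun h hh σ hσ z hz => ?_, fun z hz z' hz' hne => ?_, fun h hh => ?_,
    fun h hh z hz => ?_⟩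
  · exact hHu.inertia_equiv _ hh σ hσ ⟨z, hz⟩ ⟨σ • z, hst σ hσ z hz⟩ rfl
  · obtain ⟨h, hh, hne'⟩ := hHu.separates ⟨z, hz⟩ ⟨z', hz'⟩
      (fun e => hne (congrArg Subtype.val e))
    classical
    refine ⟨fun x => if hx : x ∈ W then h ⟨x, hx⟩ else 0, ?_, ?_⟩
    · show nsRestr W _ ∈ Hu
      have : nsRestr W (fun x => if hx : x ∈ W then h ⟨x, hx⟩ else 0) = h := by
        funext x
        simp [nsRestr_apply]
      rw [this]
      exact hh
    · simpa [hz, hz'] using hne'
  · obtain ⟨n, a, b, ha, hb, hab⟩ := hHu.comul_mem _ hh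
    classical
    have hext : ∀ f : W → Qb, nsRestr W (fun x => if hx : x ∈ W then f ⟨x, hx⟩ else 0) = f := by
      intro f
      funext x
      simp [nsRestr_apply]
    refine ⟨n, fun i x => if hx : x ∈ W then a i ⟨x, hx⟩ else 0,
      fun i x => if hx : x ∈ W then b i ⟨x, hx⟩ else 0, fun i => ?_, fun i => ?_,
      fun z hz z' hz' => ?_⟩
    · show nsRestr W _ ∈ Hu
      rw [hext]
      exact ha i
    · show nsRestr W _ ∈ Hu
      rw [hext]
      exact hb i
    · have := hab ⟨z, hz⟩ ⟨z', hz'⟩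
      simp only [dif_pos hz, dif_pos hz']
      exact this
  · exact hHu.connected _ hh ⟨z, hz⟩

/-- **The geometric contract of S33 in the form "connected order".**  For every place `A` over
`p` there is a constant `c > 0` such that for every `n` there is a finite subgroup `W1` of
`J₀(N)(ℚ̄)`, killed by powers of `p`, stable under inertia, carrying a connected order, with
`c • (σ x - x) ∈ W1` for `σ` in the inertia group and `x` killed by `p ^ n`. -/
def OrdinaryOrderStatement (N p : ℕ) [NeZero N] : Prop :=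
  ∀ A : ValuationSubring (AlgebraicClosure ℚ), A.LiesOverPrime p →
    ∃ c : ℕ, 0 < c ∧ ∀ n : ℕ, ∃ W1 : AddSubgroup (JZero N),
      Finite W1 ∧ (∀ x ∈ W1, ∃ k : ℕ, p ^ k • x = 0) ∧
      (∀ σ ∈ A.inertiaSubgroupIn ℚ, ∀ x ∈ W1, σ • x ∈ W1) ∧
      (∀ σ ∈ A.inertiaSubgroupIn ℚ, ∀ x : JZero N, p ^ n • x = 0 → c • (σ • x - x) ∈ W1) ∧
      ∃ Hu : Subring (JZero N → Qb), IsConnOrder A W1 Hu

/-- **CONN ⟹ the contract of the S33 assembly.** -/
theorem ordinaryTorsion_of_order {N p : ℕ} [NeZero N] [Fact p.Prime] (hp2 : p ≠ 2)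
    (h : OrdinaryOrderStatement N p) : OrdinaryTorsionStatement N p := by
  intro A hA
  obtain ⟨c, hc, hn⟩ := h A hA
  refine ⟨c, hc, fun n => ?_⟩
  obtain ⟨W1, hfin, htors, hst, ha, Hu, hHu⟩ := hn n
  haveI := hfin
  exact ⟨W1, hst, ha,
    noTrivSubquot_of_connOrder hp2 (placeFactsStatement p A hA) W1 hst htors Hu hHu⟩

end Fermat.Agent.H14.ORD
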