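/-
P-ORD (S33), block B1, field (M5) (helper14): the SINGLE-valuation input of `pairLattice_abs`
from the two-dimensional case of a lattice statement of type (G3) (Mathlib only).

`single_of_pair` : two elements of `Va ∩ span{1, f}` with `k`-linearly independent reductions
  give a normalisation `α f + β ∈ Va`, `α ≠ 0`, with non-constant reduction;
`single_of_g3`   : the same from a (G3) statement "every finite-dimensional `V` has `dim V`
  elements of `V ∩ Va` with linearly independent reductions".
-/
import Fermat.Agent.H14.ORD.PairLatticeAbs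

set_option autoImplicit false
set_option linter.unusedSectionVars false

namespace Fermat.Agent.H14.ORD

section

variable {K : Type*} [Field K] {A : ValuationSubring K}
  {F : Type*} [Field F] [Algebra K F]
  {Fa : Type*} [CommRing Fa] [Nontrivial Fa] [Algebra (IsLocalRing.ResidueField A) Fa]
  {Va : Subring F} {ra : Va →+* Fa}

/-- an element `a f + b` of `Va` with non-constant reduction has `a ≠ 0` -/
theorem pl_coeff_ne_zero (hC : PlConst A Va ra)
    (hiff : ∀ c : K, algebraMap K F c ∈ Va → c ∈ A) (f : F) (a b : K)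
    (h : algebraMap K F a * f + algebraMap K F b ∈ Va)
    (hn : ¬ ∃ κ, ra ⟨_, h⟩ = algebraMap (IsLocalRing.ResidueField A) Fa κ) : a ≠ 0 := by
  rintro rfl
  apply hn
  have e : algebraMap K F 0 * f + algebraMap K F b = algebraMap K F b := by
    rw [map_zero, zero_mul, zero_add]
  have hb : algebraMap K F b ∈ Va := e ▸ h
  have hbA : b ∈ A := hiff b hb
  refine ⟨IsLocalRing.residue A ⟨b, hbA⟩, ?_⟩
  rw [← hC.red ⟨b, hbA⟩ hb]
  congr 1
  exact Subtype.ext e

/-- **Single-valuation normalisation from two independent reductions.** -/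
theorem single_of_pair (hC : PlConst A Va ra)
    (hiff : ∀ c : K, algebraMap K F c ∈ Va → c ∈ A) (f : F)
    (u0 u1 : Va)
    (h0 : ∃ a b : K, (u0 : F) = algebraMap K F a * f + algebraMap K F b)
    (h1 : ∃ a b : K, (u1 : F) = algebraMap K F a * f + algebraMap K F b)
    (hli : ∀ c0 c1 : IsLocalRing.ResidueField A,
      algebraMap _ Fa c0 * ra u0 + algebraMap _ Fa c1 * ra u1 = 0 → c0 = 0 ∧ c1 = 0) :
    ∃ (α β : K) (h : algebraMap K F α * f + algebraMap K F β ∈ Va), α ≠ 0 ∧
      ¬ ∃ κ, ra ⟨_, h⟩ = algebraMap (IsLocalRing.ResidueField A) Fa κ := by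
  classical
  obtain ⟨a0, b0, e0⟩ := h0
  obtain ⟨a1, b1, e1⟩ := h1
  have key : ∀ (u : Va) (a b : K), (u : F) = algebraMap K F a * f + algebraMap K F b →
      (¬ ∃ κ, ra u = algebraMap (IsLocalRing.ResidueField A) Fa κ) →
      ∃ (α β : K) (h : algebraMap K F α * f + algebraMap K F β ∈ Va), α ≠ 0 ∧
        ¬ ∃ κ, ra ⟨_, h⟩ = algebraMap (IsLocalRing.ResidueField A) Fa κ := by
    intro u a b e hn
    have h : algebraMap K F a * f + algebraMap K F b ∈ Va := e ▸ u.2
    have hn' : ¬ ∃ κ, ra ⟨_, h⟩ = algebraMap (IsLocalRing.ResidueField A) Fa κ := by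
      rintro ⟨κ, hκ⟩
      apply hn
      refine ⟨κ, ?_⟩
      rw [← hκ]
      congr 1
      exact Subtype.ext e
    exact ⟨a, b, h, pl_coeff_ne_zero hC hiff f a b h hn', hn'⟩
  by_cases hc0 : ∃ κ, ra u0 = algebraMap (IsLocalRing.ResidueField A) Fa κ
  · by_cases hc1 : ∃ κ, ra u1 = algebraMap (IsLocalRing.ResidueField A) Fa κ
    · exfalso
      obtain ⟨κ0, hκ0⟩ := hc0
      obtain ⟨κ1, hκ1⟩ := hc1
      have hinj : Function.Injective (algebraMap (IsLocalRing.ResidueField A) Fa) :=
        (algebraMap (IsLocalRing.ResidueField A) Fa).injective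
      have hrel : algebraMap _ Fa κ1 * ra u0 + algebraMap _ Fa (-κ0) * ra u1 = 0 := by
        rw [hκ0, hκ1, map_neg]
        ring
      obtain ⟨z1, z0⟩ := hli κ1 (-κ0) hrel
      have z0' : κ0 = 0 := neg_eq_zero.1 z0
      -- then `ra u0 = 0`, so `1 * ra u0 + 0 * ra u1 = 0`
      have hrel2 : algebraMap _ Fa (1 : IsLocalRing.ResidueField A) * ra u0 +
          algebraMap _ Fa (0 : IsLocalRing.ResidueField A) * ra u1 = 0 := by
        rw [hκ0, z0', map_zero, map_one, zero_mul, mul_zero, add_zero]
      exact one_ne_zero (hli 1 0 hrel2).1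
    · exact key u1 a1 b1 e1 hc1
  · exact key u0 a0 b0 e0 hc0

/-- `{1, f}` spans a plane when `f` is not a constant -/
theorem pl_finrank_span (f : F) (hf : ∀ c : K, f ≠ algebraMap K F c) :
    Module.finrank K (Submodule.span K ({1, f} : Set F)) = 2 := by
  classical
  have hli : LinearIndependent K ![(1 : F), f] := by
    rw [LinearIndependent.pair_iff]
    intro s t hst
    have ht : t = 0 := by
      by_contra ht
      apply hf (-(s / t))
      have h1 : t • f = -(s • (1 : F)) := by
        rw [eq_neg_iff_add_eq_zero, add_comm]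
        exact hst
      have h2 : f = t⁻¹ • (t • f) := by
        rw [smul_smul, inv_mul_cancel₀ ht, one_smul]
      rw [h2, h1, smul_neg, smul_smul, Algebra.algebraMap_eq_smul_one, neg_smul]
      congr 2
      field_simp
    refine ⟨?_, ht⟩
    rw [ht, zero_smul, add_zero] at hst
    rw [Algebra.smul_def, mul_one] at hst
    exact (map_eq_zero (algebraMap K F)).1 hst
  have hr : Set.range ![(1 : F), f] = ({1, f} : Set F) := by
    ext x
    simp only [Set.mem_range, Set.mem_insert_iff, Set.mem_singleton_iff]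
    constructor
    · rintro ⟨i, rfl⟩
      fin_cases i
      · left; rfl
      · right; rfl
    · rintro (rfl | rfl)
      · exact ⟨0, rfl⟩
      · exact ⟨1, rfl⟩
  rw [← hr, finrank_span_eq_card hli, Fintype.card_fin]

/-- **Single-valuation normalisation from a (G3) statement.** -/
theorem single_of_g3 (hC : PlConst A Va ra)
    (hiff : ∀ c : K, algebraMap K F c ∈ Va → c ∈ A) (f : F)
    (hf : ∀ c : K, f ≠ algebraMap K F c)
    (hG3 : ∀ V : Submodule K F, FiniteDimensional K V →
      ∃ u : Fin (Module.finrank K V) → Va, (∀ i, ((u i : Va) : F) ∈ V) ∧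
        LinearIndependent (IsLocalRing.ResidueField A) (fun i => ra (u i))) :
    ∃ (α β : K) (h : algebraMap K F α * f + algebraMap K F β ∈ Va), α ≠ 0 ∧
      ¬ ∃ κ, ra ⟨_, h⟩ = algebraMap (IsLocalRing.ResidueField A) Fa κ := by
  classical
  set V : Submodule K F := Submodule.span K ({1, f} : Set F) with hV
  have hfd : FiniteDimensional K V :=
    FiniteDimensional.span_of_finite K (Set.toFinite _)
  obtain ⟨u, huV, huli⟩ := hG3 V hfd
  have hrk : Module.finrank K V = 2 := pl_finrank_span f hf
  have hpos0 : 0 < Module.finrank K V := by omega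
  have hpos1 : 1 < Module.finrank K V := by omega
  set i0 : Fin (Module.finrank K V) := ⟨0, hpos0⟩
  set i1 : Fin (Module.finrank K V) := ⟨1, hpos1⟩
  have hne : i0 ≠ i1 := by
    intro h
    have := congrArg Fin.val h
    simp [i0, i1] at this
  have hmem : ∀ i, ∃ a b : K, ((u i : Va) : F) = algebraMap K F a * f + algebraMap K F b := by
    intro i
    have := huV i
    rw [hV, Submodule.mem_span_pair] at this
    obtain ⟨b, a, hab⟩ := this
    refine ⟨a, b, ?_⟩
    rw [← hab, Algebra.smul_def, Algebra.smul_def, mul_one, add_comm]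
  refine single_of_pair hC hiff f (u i0) (u i1) (hmem i0) (hmem i1) ?_
  intro c0 c1 hrel
  have h2 := linearIndependent_iff'.1 huli {i0, i1} (fun i => if i = i0 then c0 else c1) (by
    rw [Finset.sum_pair hne]
    simp only [if_true, if_neg hne.symm, Algebra.smul_def]
    exact hrel)
  have z0 := h2 i0 (by simp)
  have z1 := h2 i1 (by simp)
  simp only [if_true] at z0
  rw [if_neg hne.symm] at z1
  exact ⟨z0, z1⟩

end

end Fermat.Agent.H14.ORD
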