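/-
P-ORD (S33), block B1, field (M5) `lattice` of `H18.ORD.NodalRvHyp` (helper14).

`nodal_lattice` : the field `lattice` of `NodalRvHyp p G` from the fields `const_*`,
  `red_const_*` and the two SINGLE-valuation statements `NodalSingleOo G`, `NodalSingleZero G`
  ("a non-constant `f` has a normalisation `α f + β ∈ V_c`, `α ≠ 0`, with non-constant
  reduction");
`nodalSingleOo_of_g3`, `nodalSingleZero_of_g3` : the single-valuation statements from the
  lattice statements of type (G3) `NodalG3Oo G`, `NodalG3Zero G`;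
`nodal_lattice_of_g3` : both steps together.
-/
import Fermat.Agent.H14.ORD.PairLatticeG3
import Fermat.Agent.H18.ORD.NodalDefs

set_option autoImplicit false
set_option linter.unusedSectionVars false

noncomputable section

open AlgebraicCurve ModularCurve Fermat.Agent.H18.ORD Fermat.Agent.H72.FF

namespace Fermat.Agent.H14.ORD

variable {N : ℕ} {A : ValuationSubring Qb} {Foo F0 : Type} [Field Foo] [Field F0]
  [Algebra (kRes A) Foo] [Algebra (kRes A) F0] {ι : Type}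

/-- single-valuation normalisation at `V_∞` -/
def NodalSingleOo (G : NodalData N A Foo F0 ι) : Prop :=
  ∀ f : FLb N, (∀ c : Qb, f ≠ algebraMap Qb (FLb N) c) →
    ∃ (α β : Qb) (h : algebraMap Qb (FLb N) α * f + algebraMap Qb (FLb N) β ∈ G.Voo), α ≠ 0 ∧
      ¬ ∃ κ : kRes A, G.redOo ⟨_, h⟩ = algebraMap (kRes A) Foo κ

/-- single-valuation normalisation at `V_0` -/
def NodalSingleZero (G : NodalData N A Foo F0 ι) : Prop :=
  ∀ f : FLb N, (∀ c : Qb, f ≠ algebraMap Qb (FLb N) c) →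
    ∃ (α β : Qb) (h : algebraMap Qb (FLb N) α * f + algebraMap Qb (FLb N) β ∈ G.V0), α ≠ 0 ∧
      ¬ ∃ κ : kRes A, G.red0 ⟨_, h⟩ = algebraMap (kRes A) F0 κ

/-- lattice statement of type (G3) at `V_∞` -/
def NodalG3Oo (G : NodalData N A Foo F0 ι) : Prop :=
  ∀ V : Submodule Qb (FLb N), FiniteDimensional Qb V →
    ∃ u : Fin (Module.finrank Qb V) → G.Voo, (∀ i, ((u i : G.Voo) : FLb N) ∈ V) ∧
      LinearIndependent (kRes A) (fun i => G.redOo (u i))

/-- lattice statement of type (G3) at `V_0` -/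
def NodalG3Zero (G : NodalData N A Foo F0 ι) : Prop :=
  ∀ V : Submodule Qb (FLb N), FiniteDimensional Qb V →
    ∃ u : Fin (Module.finrank Qb V) → G.V0, (∀ i, ((u i : G.V0) : FLb N) ∈ V) ∧
      LinearIndependent (kRes A) (fun i => G.red0 (u i))

theorem nodal_plConst_oo (G : NodalData N A Foo F0 ι)
    (hco : ∀ c : Qb, algebraMap Qb (FLb N) c ∈ G.Voo ↔ c ∈ A)
    (hro : ∀ (c : A) (h : algebraMap Qb (FLb N) (c : Qb) ∈ G.Voo),
      G.redOo ⟨_, h⟩ = algebraMap (kRes A) Foo (IsLocalRing.residue A c)) :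
    PlConst A G.Voo G.redOo :=
  ⟨fun c hc => (hco c).2 hc, hro⟩

theorem nodal_plConst_zero (G : NodalData N A Foo F0 ι)
    (hcz : ∀ c : Qb, algebraMap Qb (FLb N) c ∈ G.V0 ↔ c ∈ A)
    (hrz : ∀ (c : A) (h : algebraMap Qb (FLb N) (c : Qb) ∈ G.V0),
      G.red0 ⟨_, h⟩ = algebraMap (kRes A) F0 (IsLocalRing.residue A c)) :
    PlConst A G.V0 G.red0 :=
  ⟨fun c hc => (hcz c).2 hc, hrz⟩

/-- **(M5) from the two single-valuation statements.**  The conclusion is verbatim the field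
`lattice` of `H18.ORD.NodalRvHyp`. -/
theorem nodal_lattice (G : NodalData N A Foo F0 ι)
    (hco : ∀ c : Qb, algebraMap Qb (FLb N) c ∈ G.Voo ↔ c ∈ A)
    (hcz : ∀ c : Qb, algebraMap Qb (FLb N) c ∈ G.V0 ↔ c ∈ A)
    (hro : ∀ (c : A) (h : algebraMap Qb (FLb N) (c : Qb) ∈ G.Voo),
      G.redOo ⟨_, h⟩ = algebraMap (kRes A) Foo (IsLocalRing.residue A c))
    (hrz : ∀ (c : A) (h : algebraMap Qb (FLb N) (c : Qb) ∈ G.V0),
      G.red0 ⟨_, h⟩ = algebraMap (kRes A) F0 (IsLocalRing.residue A c))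
    (hSo : NodalSingleOo G) (hSz : NodalSingleZero G) :
    ∀ f : FLb N, (∀ c : Qb, f ≠ algebraMap Qb (FLb N) c) →
    ∃ (α β : Qb) (h : algebraMap Qb (FLb N) α * f + algebraMap Qb (FLb N) β ∈ G.Voo)
      (h0 : algebraMap Qb (FLb N) α * f + algebraMap Qb (FLb N) β ∈ G.V0), α ≠ 0 ∧
      ¬ ∃ κ : kRes A, G.redOo ⟨_, h⟩ = algebraMap (kRes A) Foo κ ∧
        G.red0 ⟨_, h0⟩ = algebraMap (kRes A) F0 κ := by
  intro f hf
  exact pairLattice_abs (nodal_plConst_oo G hco hro) (nodal_plConst_zero G hcz hrz) f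
    (hSo f hf) (hSz f hf)

theorem nodalSingleOo_of_g3 (G : NodalData N A Foo F0 ι)
    (hco : ∀ c : Qb, algebraMap Qb (FLb N) c ∈ G.Voo ↔ c ∈ A)
    (hro : ∀ (c : A) (h : algebraMap Qb (FLb N) (c : Qb) ∈ G.Voo),
      G.redOo ⟨_, h⟩ = algebraMap (kRes A) Foo (IsLocalRing.residue A c))
    (hG3 : NodalG3Oo G) : NodalSingleOo G := by
  intro f hf
  exact single_of_g3 (nodal_plConst_oo G hco hro) (fun c hc => (hco c).1 hc) f hf hG3

theorem nodalSingleZero_of_g3 (G : NodalData N A Foo F0 ι)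
    (hcz : ∀ c : Qb, algebraMap Qb (FLb N) c ∈ G.V0 ↔ c ∈ A)
    (hrz : ∀ (c : A) (h : algebraMap Qb (FLb N) (c : Qb) ∈ G.V0),
      G.red0 ⟨_, h⟩ = algebraMap (kRes A) F0 (IsLocalRing.residue A c))
    (hG3 : NodalG3Zero G) : NodalSingleZero G := by
  intro f hf
  exact single_of_g3 (nodal_plConst_zero G hcz hrz) (fun c hc => (hcz c).1 hc) f hf hG3

/-- **(M5) from the two lattice statements of type (G3).** -/
theorem nodal_lattice_of_g3 (G : NodalData N A Foo F0 ι)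
    (hco : ∀ c : Qb, algebraMap Qb (FLb N) c ∈ G.Voo ↔ c ∈ A)
    (hcz : ∀ c : Qb, algebraMap Qb (FLb N) c ∈ G.V0 ↔ c ∈ A)
    (hro : ∀ (c : A) (h : algebraMap Qb (FLb N) (c : Qb) ∈ G.Voo),
      G.redOo ⟨_, h⟩ = algebraMap (kRes A) Foo (IsLocalRing.residue A c))
    (hrz : ∀ (c : A) (h : algebraMap Qb (FLb N) (c : Qb) ∈ G.V0),
      G.red0 ⟨_, h⟩ = algebraMap (kRes A) F0 (IsLocalRing.residue A c))
    (hGo : NodalG3Oo G) (hGz : NodalG3Zero G) :
    ∀ f : FLb N, (∀ c : Qb, f ≠ algebraMap Qb (FLb N) c) →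
    ∃ (α β : Qb) (h : algebraMap Qb (FLb N) α * f + algebraMap Qb (FLb N) β ∈ G.Voo)
      (h0 : algebraMap Qb (FLb N) α * f + algebraMap Qb (FLb N) β ∈ G.V0), α ≠ 0 ∧
      ¬ ∃ κ : kRes A, G.redOo ⟨_, h⟩ = algebraMap (kRes A) Foo κ ∧
        G.red0 ⟨_, h0⟩ = algebraMap (kRes A) F0 κ :=
  nodal_lattice G hco hcz hro hrz (nodalSingleOo_of_g3 G hco hro hGo)
    (nodalSingleZero_of_g3 G hcz hrz hGz)

end Fermat.Agent.H14.ORD
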