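/-
P-ORD (S33), block B1, field (M5) `lattice` of `H18.ORD.NodalRvHyp` (helper14).

ABSTRACT PAIR-LATTICE LEMMA (Mathlib only).  `K` a field, `A` a valuation subring, `k` its residue
field, `F` a `K`-algebra, `Va`, `Vb` two subrings of `F` with reductions `ra : Va →+* Fa`,
`rb : Vb →+* Fb` (`Fa`, `Fb` nontrivial `k`-algebras), such that the constants of `A` lie in both
rings and reduce to their residue class.  If `g1 ∈ Va` and `g0 = γ g1 + δ ∈ Vb` (`γ ≠ 0`) both have
non-constant reduction, then some `h = a g1 + b` (`a ≠ 0`) lies in `Va ∩ Vb` and its pair of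
reductions is not a constant pair `(κ, κ)`.

Closed form, four cases (no iteration, no discreteness of the valuation):
* `γ⁻¹ ∈ A`, `δ γ⁻¹ ∈ A`   : `h = g1`;
* `γ⁻¹ ∈ A`, `δ γ⁻¹ ∉ A`   : `h = (γ / δ) g1 = δ⁻¹ g0 - 1`, pair `(0, -1)`;
* `γ⁻¹ ∉ A`, `δ ∈ A`       : `h = g0`;
* `γ⁻¹ ∉ A`, `δ ∉ A`       : `h = δ⁻¹ g0 = (γ / δ) g1 + 1`, pair `(1, 0)`.
-/
import Mathlib

set_option autoImplicit false
set_option linter.unusedSectionVars false

namespace Fermat.Agent.H14.ORD

section PairLatticeAbs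

variable {K : Type*} [Field K] (A : ValuationSubring K)
  {F : Type*} [CommRing F] [Algebra K F]
  {Fa : Type*} [CommRing Fa] [Nontrivial Fa] [Algebra (IsLocalRing.ResidueField A) Fa]
  (Va : Subring F) (ra : Va →+* Fa)

/-- the constants of `A` lie in `Va` and reduce to their residue class -/
structure PlConst : Prop where
  mem : ∀ c : K, c ∈ A → algebraMap K F c ∈ Va
  red : ∀ (c : A) (h : algebraMap K F (c : K) ∈ Va),
    ra ⟨_, h⟩ = algebraMap (IsLocalRing.ResidueField A) Fa (IsLocalRing.residue A c)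

variable {A Va ra}

theorem PlConst.red_nonunit (hC : PlConst A Va ra) {c : K} (hc : c ∈ A.nonunits)
    (h : algebraMap K F c ∈ Va) : ra ⟨_, h⟩ = 0 := by
  have hcA : c ∈ A := A.nonunits_subset hc
  have h1 := hC.red ⟨c, hcA⟩ h
  rw [h1]
  have : IsLocalRing.residue A ⟨c, hcA⟩ = 0 := by
    rw [IsLocalRing.residue_eq_zero_iff]
    rw [IsLocalRing.mem_maximalIdeal]
    intro hu
    rw [ValuationSubring.mem_nonunits_iff_exists_mem_maximalIdeal] at hc
    obtain ⟨ha, hm⟩ := hc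
    exact (IsLocalRing.mem_maximalIdeal _).1 hm hu
  rw [this, map_zero]

/-- `c g ∈ Va` for `c ∈ A`, `g ∈ Va` -/
theorem PlConst.mul_mem (hC : PlConst A Va ra) {c : K} (hc : c ∈ A) {g : F} (hg : g ∈ Va) :
    algebraMap K F c * g ∈ Va :=
  Va.mul_mem (hC.mem c hc) hg

/-- reduction of `c g` for `c ∈ 𝔪_A` -/
theorem PlConst.red_nonunit_mul (hC : PlConst A Va ra) {c : K} (hc : c ∈ A.nonunits) {g : F}
    (hg : g ∈ Va) (h : algebraMap K F c * g ∈ Va) : ra ⟨_, h⟩ = 0 := by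
  have hcV : algebraMap K F c ∈ Va := hC.mem c (A.nonunits_subset hc)
  have : (⟨_, h⟩ : Va) = ⟨_, hcV⟩ * ⟨g, hg⟩ := rfl
  rw [this, map_mul, hC.red_nonunit hc hcV, zero_mul]

theorem PlConst.algebraMap_injective (_hC : PlConst A Va ra) :
    Function.Injective (algebraMap (IsLocalRing.ResidueField A) Fa) :=
  (algebraMap (IsLocalRing.ResidueField A) Fa).injective

end PairLatticeAbs

section PairLatticeCore

variable {K : Type*} [Field K] {A : ValuationSubring K}
  {F : Type*} [CommRing F] [Algebra K F]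
  {Fa : Type*} [CommRing Fa] [Nontrivial Fa] [Algebra (IsLocalRing.ResidueField A) Fa]
  {Fb : Type*} [CommRing Fb] [Nontrivial Fb] [Algebra (IsLocalRing.ResidueField A) Fb]
  {Va Vb : Subring F} {ra : Va →+* Fa} {rb : Vb →+* Fb}

theorem inv_mem_nonunits_of_not_mem {x : K} (hx : x ∉ A) : x⁻¹ ∈ A.nonunits := by
  rw [ValuationSubring.mem_nonunits_iff]
  have h1 : ¬ A.valuation x ≤ 1 := fun h => hx ((A.valuation_le_one_iff x).1 h)
  have h1' : 1 < A.valuation x := not_le.1 h1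
  rw [map_inv₀]
  exact inv_lt_one_of_one_lt₀ h1'

/-- **Abstract pair lattice, core form.** -/
theorem pairLattice_core (hCa : PlConst A Va ra) (hCb : PlConst A Vb rb)
    (g1 : F) (h1 : g1 ∈ Va)
    (hn1 : ¬ ∃ κ, ra ⟨g1, h1⟩ = algebraMap (IsLocalRing.ResidueField A) Fa κ)
    (γ δ : K) (hγ : γ ≠ 0)
    (h0 : algebraMap K F γ * g1 + algebraMap K F δ ∈ Vb)
    (hn0 : ¬ ∃ κ, rb ⟨_, h0⟩ = algebraMap (IsLocalRing.ResidueField A) Fb κ) :
    ∃ a b : K, a ≠ 0 ∧ ∃ (ha : algebraMap K F a * g1 + algebraMap K F b ∈ Va)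
      (hb : algebraMap K F a * g1 + algebraMap K F b ∈ Vb),
      ¬ ∃ κ : IsLocalRing.ResidueField A,
        ra ⟨_, ha⟩ = algebraMap (IsLocalRing.ResidueField A) Fa κ ∧
        rb ⟨_, hb⟩ = algebraMap (IsLocalRing.ResidueField A) Fb κ := by
  classical
  set g0 : F := algebraMap K F γ * g1 + algebraMap K F δ with hg0
  by_cases hγi : γ⁻¹ ∈ A
  · by_cases hδγ : δ * γ⁻¹ ∈ A
    · -- `h = g1`
      refine ⟨1, 0, one_ne_zero, ?_⟩
      have e1 : algebraMap K F 1 * g1 + algebraMap K F 0 = g1 := by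
        rw [map_one, map_zero, one_mul, add_zero]
      have e2 : g1 = algebraMap K F γ⁻¹ * g0 - algebraMap K F (δ * γ⁻¹) := by
        rw [hg0, mul_add, ← mul_assoc, ← map_mul, inv_mul_cancel₀ hγ, map_one, one_mul,
          ← map_mul, mul_comm γ⁻¹ δ, add_sub_cancel_right]
      rw [e1]
      have hb : g1 ∈ Vb := by
        rw [e2]
        exact Vb.sub_mem (hCb.mul_mem hγi h0) (hCb.mem _ hδγ)
      refine ⟨h1, hb, ?_⟩
      rintro ⟨κ, hκ, -⟩
      exact hn1 ⟨κ, hκ⟩
    · -- `h = (γ / δ) g1 = δ⁻¹ g0 - 1`, pair `(0, -1)`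
      have hδ : δ ≠ 0 := by
        rintro rfl
        exact hδγ (by rw [zero_mul]; exact A.zero_mem)
      have hc : (δ * γ⁻¹)⁻¹ ∈ A.nonunits := inv_mem_nonunits_of_not_mem hδγ
      have hc' : γ * δ⁻¹ ∈ A.nonunits := by
        have : (δ * γ⁻¹)⁻¹ = γ * δ⁻¹ := by
          rw [mul_inv, inv_inv, mul_comm]
        rwa [this] at hc
      have hδi : δ⁻¹ ∈ A.nonunits := by
        have : δ⁻¹ = γ⁻¹ * (γ * δ⁻¹) := by
          rw [← mul_assoc, inv_mul_cancel₀ hγ, one_mul]
        rw [this]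
        rw [ValuationSubring.mem_nonunits_iff, map_mul]
        calc A.valuation γ⁻¹ * A.valuation (γ * δ⁻¹)
            ≤ 1 * A.valuation (γ * δ⁻¹) := by
              gcongr
              exact (A.valuation_le_one_iff _).2 hγi
          _ = A.valuation (γ * δ⁻¹) := one_mul _
          _ < 1 := by
              have := hc'
              rwa [ValuationSubring.mem_nonunits_iff] at this
      refine ⟨γ * δ⁻¹, 0, mul_ne_zero hγ (inv_ne_zero hδ), ?_⟩
      have e1 : algebraMap K F (γ * δ⁻¹) * g1 + algebraMap K F 0 =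
          algebraMap K F (γ * δ⁻¹) * g1 := by
        rw [map_zero, add_zero]
      have e2 : algebraMap K F (γ * δ⁻¹) * g1 = algebraMap K F δ⁻¹ * g0 - 1 := by
        rw [hg0, mul_add, ← map_mul, inv_mul_cancel₀ hδ, map_one, add_sub_cancel_right,
          ← mul_assoc, ← map_mul, mul_comm δ⁻¹ γ]
      rw [e1]
      have ha : algebraMap K F (γ * δ⁻¹) * g1 ∈ Va :=
        hCa.mul_mem (A.nonunits_subset hc') h1
      have hb0 : algebraMap K F δ⁻¹ * g0 ∈ Vb := hCb.mul_mem (A.nonunits_subset hδi) h0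
      have hb : algebraMap K F (γ * δ⁻¹) * g1 ∈ Vb := by
        rw [e2]
        exact Vb.sub_mem hb0 Vb.one_mem
      refine ⟨ha, hb, ?_⟩
      rintro ⟨κ, hκa, hκb⟩
      have ra0 : ra ⟨_, ha⟩ = 0 := hCa.red_nonunit_mul hc' h1 ha
      have rb0 : rb ⟨_, hb0⟩ = 0 := hCb.red_nonunit_mul hδi h0 hb0
      have hsub : (⟨_, hb⟩ : Vb) = ⟨_, hb0⟩ - 1 := by
        apply Subtype.ext
        exact e2
      have rb1 : rb ⟨_, hb⟩ = -1 := by
        rw [hsub, map_sub, rb0, map_one, zero_sub]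
      have hκ0 : κ = 0 := by
        apply hCa.algebraMap_injective
        rw [map_zero, ← hκa, ra0]
      rw [hκ0, map_zero, rb1] at hκb
      exact one_ne_zero (neg_eq_zero.1 hκb)
  · have hγn : γ ∈ A.nonunits := by
      have := inv_mem_nonunits_of_not_mem hγi
      rwa [inv_inv] at this
    by_cases hδA : δ ∈ A
    · -- `h = g0`
      refine ⟨γ, δ, hγ, ?_⟩
      have ha : g0 ∈ Va :=
        Va.add_mem (hCa.mul_mem (A.nonunits_subset hγn) h1) (hCa.mem _ hδA)
      refine ⟨ha, h0, ?_⟩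
      rintro ⟨κ, -, hκ⟩
      exact hn0 ⟨κ, hκ⟩
    · -- `h = δ⁻¹ g0 = (γ / δ) g1 + 1`, pair `(1, 0)`
      have hδ : δ ≠ 0 := by
        rintro rfl
        exact hδA A.zero_mem
      have hδi : δ⁻¹ ∈ A.nonunits := inv_mem_nonunits_of_not_mem hδA
      have hc' : γ * δ⁻¹ ∈ A.nonunits := by
        rw [ValuationSubring.mem_nonunits_iff, map_mul]
        calc A.valuation γ * A.valuation δ⁻¹
            ≤ 1 * A.valuation δ⁻¹ := by
              gcongr
              have := hγn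
              rw [ValuationSubring.mem_nonunits_iff] at this
              exact this.le
          _ = A.valuation δ⁻¹ := one_mul _
          _ < 1 := by
              have := hδi
              rwa [ValuationSubring.mem_nonunits_iff] at this
      refine ⟨γ * δ⁻¹, 1, mul_ne_zero hγ (inv_ne_zero hδ), ?_⟩
      have e2 : algebraMap K F (γ * δ⁻¹) * g1 + algebraMap K F 1 = algebraMap K F δ⁻¹ * g0 := by
        rw [hg0, mul_add, ← map_mul (algebraMap K F) δ⁻¹ δ, inv_mul_cancel₀ hδ, ← mul_assoc,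
          ← map_mul, mul_comm δ⁻¹ γ]
      have ha0 : algebraMap K F (γ * δ⁻¹) * g1 ∈ Va :=
        hCa.mul_mem (A.nonunits_subset hc') h1
      have ha : algebraMap K F (γ * δ⁻¹) * g1 + algebraMap K F 1 ∈ Va := by
        rw [map_one]
        exact Va.add_mem ha0 Va.one_mem
      have hb : algebraMap K F (γ * δ⁻¹) * g1 + algebraMap K F 1 ∈ Vb := by
        rw [e2]
        exact hCb.mul_mem (A.nonunits_subset hδi) h0
      refine ⟨ha, hb, ?_⟩
      rintro ⟨κ, hκa, hκb⟩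
      have ra0 : ra ⟨_, ha0⟩ = 0 := hCa.red_nonunit_mul hc' h1 ha0
      have hadd : (⟨_, ha⟩ : Va) = ⟨_, ha0⟩ + 1 := by
        apply Subtype.ext
        show algebraMap K F (γ * δ⁻¹) * g1 + algebraMap K F 1 =
          algebraMap K F (γ * δ⁻¹) * g1 + 1
        rw [map_one]
      have ra1 : ra ⟨_, ha⟩ = 1 := by
        rw [hadd, map_add, ra0, map_one, zero_add]
      have hb' : algebraMap K F δ⁻¹ * g0 ∈ Vb := hCb.mul_mem (A.nonunits_subset hδi) h0
      have rb0' : rb ⟨_, hb'⟩ = 0 := hCb.red_nonunit_mul hδi h0 hb'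
      have hbe : (⟨_, hb⟩ : Vb) = ⟨_, hb'⟩ := Subtype.ext e2
      have rb0 : rb ⟨_, hb⟩ = 0 := by rw [hbe, rb0']
      have hκ0 : κ = 0 := by
        apply hCb.algebraMap_injective
        rw [map_zero, ← hκb, rb0]
      rw [hκ0, map_zero, ra1] at hκa
      exact one_ne_zero hκa

/-- **Abstract pair lattice.**  If every non-constant `f` has a normalisation with non-constant
reduction at `Va` and one at `Vb`, then every non-constant `f` has a normalisation in `Va ∩ Vb`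
whose pair of reductions is not a constant pair. -/
theorem pairLattice_abs (hCa : PlConst A Va ra) (hCb : PlConst A Vb rb)
    (f : F)
    (hLa : ∃ (α β : K) (h : algebraMap K F α * f + algebraMap K F β ∈ Va), α ≠ 0 ∧
      ¬ ∃ κ, ra ⟨_, h⟩ = algebraMap (IsLocalRing.ResidueField A) Fa κ)
    (hLb : ∃ (α β : K) (h : algebraMap K F α * f + algebraMap K F β ∈ Vb), α ≠ 0 ∧
      ¬ ∃ κ, rb ⟨_, h⟩ = algebraMap (IsLocalRing.ResidueField A) Fb κ) :
    ∃ (α β : K) (h : algebraMap K F α * f + algebraMap K F β ∈ Va)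
      (h0 : algebraMap K F α * f + algebraMap K F β ∈ Vb), α ≠ 0 ∧
      ¬ ∃ κ : IsLocalRing.ResidueField A,
        ra ⟨_, h⟩ = algebraMap (IsLocalRing.ResidueField A) Fa κ ∧
        rb ⟨_, h0⟩ = algebraMap (IsLocalRing.ResidueField A) Fb κ := by
  obtain ⟨α1, β1, h1, hα1, hn1⟩ := hLa
  obtain ⟨α0, β0, h0, hα0, hn0⟩ := hLb
  set g1 : F := algebraMap K F α1 * f + algebraMap K F β1 with hg1
  have e0 : algebraMap K F α0 * f + algebraMap K F β0 =
      algebraMap K F (α0 * α1⁻¹) * g1 + algebraMap K F (β0 - α0 * α1⁻¹ * β1) := by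
    rw [hg1, mul_add, ← mul_assoc, ← map_mul, mul_assoc α0, inv_mul_cancel₀ hα1, mul_one,
      map_sub, ← map_mul]
    ring
  have h0' : algebraMap K F (α0 * α1⁻¹) * g1 + algebraMap K F (β0 - α0 * α1⁻¹ * β1) ∈ Vb := by
    rw [← e0]; exact h0
  have hn0' : ¬ ∃ κ, rb ⟨_, h0'⟩ = algebraMap (IsLocalRing.ResidueField A) Fb κ := by
    rintro ⟨κ, hκ⟩
    apply hn0
    refine ⟨κ, ?_⟩
    rw [← hκ]
    congr 1
    exact Subtype.ext e0
  obtain ⟨a, b, ha, hgood⟩ := pairLattice_core hCa hCb g1 h1 hn1 (α0 * α1⁻¹)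
    (β0 - α0 * α1⁻¹ * β1) (mul_ne_zero hα0 (inv_ne_zero hα1)) h0' hn0'
  obtain ⟨hVa, hVb, hnc⟩ := hgood
  have e : algebraMap K F a * g1 + algebraMap K F b =
      algebraMap K F (a * α1) * f + algebraMap K F (a * β1 + b) := by
    rw [hg1, map_mul, map_add, map_mul]
    ring
  refine ⟨a * α1, a * β1 + b, e ▸ hVa, e ▸ hVb, mul_ne_zero ha hα1, ?_⟩
  rintro ⟨κ, hκa, hκb⟩
  apply hnc
  refine ⟨κ, ?_, ?_⟩
  · rw [← hκa]
    congr 1
    exact Subtype.ext e
  · rw [← hκb]
    congr 1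
    exact Subtype.ext e

end PairLatticeCore

end Fermat.Agent.H14.ORD
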