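/-
helper14 (P-ORD, S33 assembly): RESIDUAL RAMIFICATION at `p`.

* `ord_exists_inertia_cyclo`: for `p` odd, every inertia group at a place over `p` contains an
  element on which the mod `p` cyclotomic character is nontrivial (the global Minkowski lemma of
  helper79 + the cyclotomic character is unramified outside `p`).
* `ord_ram`: for a Hecke-Galois datum, some inertia element at `p` does not act trivially on
  `V / 𝔪 V` (the determinant is the cyclotomic character modulo `𝔪`, by Frobenius density).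
-/
import Fermat.Agent.H14.S34Assembly
import Fermat.Agent.H72.FDT.Interfaces
import Fermat.Agent.H79.GlobalRamified
import Fermat.Agent.H53.ES.CycloFrob
import Fermat.Agent.H81.FrobExists

set_option autoImplicit false
set_option linter.style.haveILetI false
set_option linter.unusedSectionVars false

namespace Fermat.Agent.H14.ORD

open IsLocalRing Fermat.Agent.H14

/-- For `p` odd, the mod `p` cyclotomic character is ramified at every place over `p`. -/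
theorem ord_exists_inertia_cyclo (p : ℕ) [Fact p.Prime] (hp2 : p ≠ 2)
    (A : ValuationSubring (AlgebraicClosure ℚ)) (hA : A.LiesOverPrime p) :
    ∃ σ ∈ A.inertiaSubgroupIn ℚ, ExtCitation.cycloChar p σ ≠ 1 := by
  have hp : p.Prime := Fact.out
  have hp3 : 3 ≤ p := by
    have h2 := hp.two_le
    omega
  have hχ : ExtCitation.cycloChar p ≠ 1 := by
    obtain ⟨A2, σ2, hA2, hσ2⟩ :=
      Fermat.Agent.H81.exists_liesOverPrime_isFrobeniusAt 2 Nat.prime_two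
    intro h
    have h1 := Fermat.Agent.H53.cycloChar_of_isFrobeniusAt p Nat.prime_two (Ne.symm hp2) hA2 hσ2
    rw [h] at h1
    have h2 : ((2 : ℕ) : ZMod p) = ((1 : ℕ) : ZMod p) := by
      rw [← h1]
      simp
    rw [ZMod.natCast_eq_natCast_iff'] at h2
    rw [Nat.mod_eq_of_lt (by omega : 2 < p), Nat.mod_eq_of_lt (by omega : 1 < p)] at h2
    omega
  obtain ⟨F, hF, hFχ⟩ := Fermat.Agent.H53.cycloChar_factorsThroughFiniteLevel p
  haveI := hF
  haveI := Fermat.Agent.H53.isGalois_algebraicClosure_rat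
  obtain ⟨ℓ, hℓ, hall⟩ :=
    Fermat.Agent.H79.exists_prime_forall_exists_inertia_ne_one_of_finite
      (ExtCitation.cycloChar p) F hFχ hχ
  by_cases hℓp : ℓ = p
  · subst hℓp
    exact hall A hA
  · exfalso
    obtain ⟨A', hA'⟩ :=
      Fermat.Agent.H81.exists_valuationSubring_liesOverPrime (K := AlgebraicClosure ℚ) ℓ hℓ
    obtain ⟨σ, hσ, hne⟩ := hall A' hA'
    exact hne (Fermat.Agent.H53.cycloChar_of_mem_inertiaSubgroupIn p hℓ hℓp hA' hσ)

section Ram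

variable {p : ℕ} {N : ℕ} [NeZero N] {S : Finset ℕ}
  {𝒪 : Type} [CommRing 𝒪] [IsDomain 𝒪] [IsDiscreteValuationRing 𝒪]
  [IsAdicComplete (IsLocalRing.maximalIdeal 𝒪) 𝒪]
  {θ : CuspForm.heckeAlgebra N 2 (↑S : Set ℕ) →+* IsLocalRing.ResidueField 𝒪}
  {T : Type} [CommRing T] [IsLocalRing T] [IsNoetherianRing T]
  [IsAdicComplete (IsLocalRing.maximalIdeal T) T] [Algebra 𝒪 T] [IsLocalHom (algebraMap 𝒪 T)]
  [Module.Finite 𝒪 T] [Module.Free 𝒪 T]

/-- **Residual ramification at `p`.** -/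
theorem ord_ram (hFrob : Fermat.Agent.H72.FrobPowStatement)
    (hp : p.Prime) (hp2 : p ≠ 2) (hp𝒪 : (p : 𝒪) ∈ IsLocalRing.maximalIdeal 𝒪)
    (hpS : p ∈ S) (hNS : ∀ q : ℕ, q.Prime → q ∣ N → q ∈ S)
    (H : CuspForm.HeckeGaloisRepDatum N (↑S : Set ℕ) 𝒪 θ T)
    (A : ValuationSubring (AlgebraicClosure ℚ)) (hA : A.LiesOverPrime p) :
    ∃ σ ∈ A.inertiaSubgroupIn ℚ, ∃ v : H.ρ.V,
      H.ρ.ρ σ v - v ∉ (IsLocalRing.maximalIdeal T) • (⊤ : Submodule T H.ρ.V) := by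
  classical
  haveI : Fact p.Prime := ⟨hp⟩
  obtain ⟨σ₀, hσ₀, hχσ₀⟩ := ord_exists_inertia_cyclo p hp2 A hA
  refine ⟨σ₀, hσ₀, ?_⟩
  by_contra hno
  have hno' : ∀ v : H.ρ.V,
      H.ρ.ρ σ₀ v - v ∈ (IsLocalRing.maximalIdeal T) • (⊤ : Submodule T H.ρ.V) := by
    intro v
    by_contra hv
    exact hno ⟨v, hv⟩
  have hdet1 : LinearMap.det (H.ρ.ρ σ₀) - 1 ∈ maximalIdeal T :=
    s34_det_sub_one_mem (maximalIdeal T) (H.ρ.ρ σ₀) hno'
  -- Frobenius density
  obtain ⟨L₂, hL₂fin, hL₂⟩ := H.ρ.isAdicContinuous 1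
  obtain ⟨F, hF, hFχ⟩ := Fermat.Agent.H53.cycloChar_factorsThroughFiniteLevel p
  haveI := hL₂fin
  haveI := hF
  obtain ⟨ℓ, A', τ, k, -, hℓ, hℓS, hA', hτ, hk, -⟩ :=
    hFrob (L₂ ⊔ F) (IntermediateField.finiteDimensional_sup L₂ F) σ₀ S
  have hℓp : ℓ ≠ p := fun h => hℓS (h ▸ hpS)
  have hℓS' : ℓ ∉ (↑S : Set ℕ) := fun h => hℓS (Finset.mem_coe.mp h)
  have hℓN : ¬ ℓ ∣ N := fun hdvd => hℓS (hNS ℓ hℓ hdvd)
  -- the cyclotomic character of `σ₀`
  have hχeq : ExtCitation.cycloChar p (τ ^ k) = ExtCitation.cycloChar p σ₀ := by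
    have h1 : ExtCitation.cycloChar p ((τ ^ k)⁻¹ * σ₀) = 1 := by
      refine hFχ _ fun x hx => ?_
      rw [AlgEquiv.mul_apply, hk x (le_sup_right (a := L₂) (b := F) hx), ← AlgEquiv.mul_apply,
        inv_mul_cancel, AlgEquiv.one_apply]
    rw [map_mul, map_inv] at h1
    exact inv_mul_eq_one.mp h1
  have hχτ : ((ExtCitation.cycloChar p τ : (ZMod p)ˣ) : ZMod p) = (ℓ : ZMod p) :=
    Fermat.Agent.H53.cycloChar_of_isFrobeniusAt p hℓ hℓp hA' hτ
  -- the determinant of `σ₀`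
  haveI : Nontrivial T := inferInstance
  have hdetτ : LinearMap.det (H.ρ.ρ τ) = (ℓ : T) :=
    s34_det_of_charpoly H.ρ.finrank_eq (H.ρ.ρ τ) _ _ (H.charpoly_frob ℓ hℓ hℓN hℓS' A' hA' τ hτ)
  have hdetk : LinearMap.det (H.ρ.ρ (τ ^ k)) = (ℓ : T) ^ k := by
    rw [map_pow, map_pow, hdetτ]
  have hL₂' : ∀ σ : S31GQ, (∀ x ∈ L₂, σ x = x) →
      ∀ v : H.ρ.V, H.ρ.ρ σ v - v ∈ (maximalIdeal T ^ 1) • (⊤ : Submodule T H.ρ.V) := hL₂
  have hcongr := s34_det_sub_mem H.ρ 1 L₂ hL₂' (τ ^ k) σ₀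
    (fun z hz => (hk z (le_sup_left (a := L₂) (b := F) hz)).symm)
  rw [pow_one] at hcongr
  have h3 : ((ℓ ^ k : ℕ) : T) - 1 ∈ maximalIdeal T := by
    have e : ((ℓ ^ k : ℕ) : T) - 1 = (LinearMap.det (H.ρ.ρ σ₀) - 1)
        - (LinearMap.det (H.ρ.ρ σ₀) - LinearMap.det (H.ρ.ρ (τ ^ k))) := by
      rw [hdetk]
      push_cast
      ring
    rw [e]
    exact Ideal.sub_mem _ hdet1 hcongr
  have hpm : (p : T) ∈ maximalIdeal T := by
    have h1 : (p : T) = algebraMap 𝒪 T (p : 𝒪) := (map_natCast _ p).symm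
    rw [h1, IsLocalRing.mem_maximalIdeal, mem_nonunits_iff]
    intro hu
    exact (IsLocalRing.mem_maximalIdeal _).mp hp𝒪 ((isUnit_map_iff (algebraMap 𝒪 T) (p : 𝒪)).mp hu)
  have h4 : ((ℓ ^ k : ℕ) : ZMod p) = 1 := by
    by_contra hne
    have hndvd : ¬ (p : ℤ) ∣ ((ℓ ^ k : ℕ) : ℤ) - 1 := by
      intro hdvd
      apply hne
      have := (ZMod.intCast_zmod_eq_zero_iff_dvd (((ℓ ^ k : ℕ) : ℤ) - 1) p).mpr hdvd
      push_cast at this
      rw [sub_eq_zero] at this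
      push_cast
      exact this
    have hcop : IsCoprime ((p : ℤ)) (((ℓ ^ k : ℕ) : ℤ) - 1) :=
      (Prime.coprime_iff_not_dvd (Nat.prime_iff_prime_int.mp hp)).mpr hndvd
    obtain ⟨a, b, hab⟩ := hcop
    have h5 : ((a : T) * (p : T) + (b : T) * (((ℓ ^ k : ℕ) : T) - 1)) = 1 := by
      have := congrArg (Int.cast : ℤ → T) hab
      push_cast at this
      push_cast
      exact this
    have h6 : (1 : T) ∈ maximalIdeal T := by
      rw [← h5]
      exact Ideal.add_mem _ (Ideal.mul_mem_left _ _ hpm) (Ideal.mul_mem_left _ _ h3)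
    exact (Ideal.ne_top_iff_one _).mp (IsLocalRing.maximalIdeal.isMaximal T).ne_top h6
  apply hχσ₀
  rw [← hχeq, map_pow]
  apply Units.ext
  rw [Units.val_pow_eq_pow_val, hχτ, Units.val_one, ← Nat.cast_pow]
  exact h4

end Ram

end Fermat.Agent.H14.ORD
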