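/-
helper14 (P-ORD, S33 assembly): the frozen S33 from the J-side contract ALONE.

`s33_of_ordinaryTorsion`: the only hypothesis is `OrdinaryTorsionStatement N p`
(`Fermat.Agent.H14.ORD.Interfaces`).
-/
import Fermat.Agent.H14.ORD.Final
import Fermat.Agent.H14.ORD.Ram

set_option autoImplicit false

namespace Fermat.Agent.H14.ORD

variable {p : ℕ} {N : ℕ} [NeZero N] {S : Finset ℕ}
  {𝒪 : Type} [CommRing 𝒪] [IsDomain 𝒪] [IsDiscreteValuationRing 𝒪]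
  [IsAdicComplete (IsLocalRing.maximalIdeal 𝒪) 𝒪]
  {θ : CuspForm.heckeAlgebra N 2 (↑S : Set ℕ) →+* IsLocalRing.ResidueField 𝒪}
  {T : Type} [CommRing T] [IsLocalRing T] [IsNoetherianRing T]
  [IsAdicComplete (IsLocalRing.maximalIdeal T) T] [Algebra 𝒪 T] [IsLocalHom (algebraMap 𝒪 T)]
  [Module.Finite 𝒪 T] [Module.Free 𝒪 T]

/-- **S33 from the ordinary torsion contract.** -/
theorem s33_of_ordinaryTorsion (hOT : OrdinaryTorsionStatement N p)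
    [Finite (IsLocalRing.ResidueField 𝒪)] [CharZero 𝒪]
    (hp : p.Prime) (hp2 : p ≠ 2) (hp𝒪 : (p : 𝒪) ∈ IsLocalRing.maximalIdeal 𝒪)
    (hN : p ∣ N ∧ ¬ p ^ 2 ∣ N)
    (hNS : ∀ q : ℕ, q.Prime → q ∣ N → q ∈ S)
    (H : CuspForm.HeckeGaloisRepDatum N (↑S : Set ℕ) 𝒪 θ T)
    (hres : (GaloisRepAdic.ofResidualGaloisRep H.ρ.residual).IsOrdinaryAt p) :
    H.ρ.IsOrdinaryAt p :=
  s33_of_ordinaryTorsion_of_ram hOT hp hp2 hp𝒪 hN hNS H
    (fun A hA => ord_ram Fermat.Agent.H72.frobPow hp hp2 hp𝒪 (hNS p hp hN.1) hNS H A hA) hres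

end Fermat.Agent.H14.ORD
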