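/-
P-ORD (S33), helper14: THE TOP OF S33 WITH BLOCK (G-B) AND [N-SEP] CLOSED.

  `addApproxN_closed : H94.ORD.AddApproxN`      block (G-B), assembled from the landed rows
     (helper94 AddN / MovingN, helper10 F2FamilyN, helper90 AuxSectionsN, helper39
     GenericSectionN, helper29 LiftBasisN, helper83 RedKernelN, helper56 ResDivN, helper26
     DiscAdapters + Cramer, helper42 DiscZeroC, helper69 NodalCoordN);
  `sepOfRR_closed : H72.ORD.SepOfRRStatement`   [N-SEP] (helper16);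
  `s33_of_nmBlocks`  : the frozen S33, binder for binder, from the ONLY remaining input
     `hB : ∀ M p, p.Prime → p ≠ 2 → M.Coprime p → 4 ∣ M → H92.ORD.NmBlocks M p`  (block B1:
     `tot`, `rv`, `gal`, `lift`, `nodes`, `genus` for helper84's concrete nodal data `nmG`).
-/
import Fermat.Agent.H72.ORD.NodalSep
import Fermat.Agent.H92.ORD.NodalAsm
import Fermat.Agent.H10.ORD.F2FamilyN
import Fermat.Agent.H90.ORD.AuxSectionsN
import Fermat.Agent.H39.ORD.GenericSectionN
import Fermat.Agent.H29.ORD.LiftBasisN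
import Fermat.Agent.H94.ORD.MovingN
import Fermat.Agent.H83.ORD.RedKernelN
import Fermat.Agent.H56.ORD.ResDivN
import Fermat.Agent.H26.ORD.DiscAdapters
import Fermat.Agent.H42.ORD.DiscZeroC
import Fermat.Agent.H69.ORD.NodalCoordN
import Fermat.Agent.H94.ORD.AddN
import Fermat.Agent.H16.ORD.SepRR
import Fermat.Agent.H26.FF.TaylorApprox

set_option autoImplicit false

namespace Fermat.Agent.H14.ORD

/-- **Block (G-B), closed**: the group law in nodal Jacobi coordinates is approximable. -/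
theorem addApproxN_closed : Fermat.Agent.H94.ORD.AddApproxN :=
  Fermat.Agent.H94.ORD.nodalAddApprox
    (Fermat.Agent.H10.ORD.f2FamilyN
      (Fermat.Agent.H90.ORD.auxSectionsN Fermat.Agent.H39.ORD.genericSectionN)
      Fermat.Agent.H29.ORD.liftBasisN
      (Fermat.Agent.H94.ORD.movingZerosN Fermat.Agent.H26.ORD.taylorApproxC_final
        Fermat.Agent.H26.ORD.rootApproxC_final Fermat.Agent.H42.ORD.discZeroC
        Fermat.Agent.H69.ORD.unrCoordN)
      Fermat.Agent.H83.ORD.redKernelN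
      Fermat.Agent.H26.FF.cramer)
    Fermat.Agent.H56.ORD.residualDivisorN
    Fermat.Agent.H26.ORD.rootApproxC_final

/-- **[N-SEP], closed**: separating elements from the Riemann-Roch hypotheses. -/
theorem sepOfRR_closed : Fermat.Agent.H72.ORD.SepOfRRStatement :=
  fun _ _ _ _ _ _ h => Fermat.Agent.H16.ORD.exists_sep_of_rrHyp h

section S33

variable {p : ℕ} {N : ℕ} [NeZero N] {S : Finset ℕ}
  {𝒪 : Type} [CommRing 𝒪] [IsDomain 𝒪] [IsDiscreteValuationRing 𝒪]
  [IsAdicComplete (IsLocalRing.maximalIdeal 𝒪) 𝒪]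
  {θ : CuspForm.heckeAlgebra N 2 (↑S : Set ℕ) →+* IsLocalRing.ResidueField 𝒪}
  {T : Type} [CommRing T] [IsLocalRing T] [IsNoetherianRing T]
  [IsAdicComplete (IsLocalRing.maximalIdeal T) T] [Algebra 𝒪 T] [IsLocalHom (algebraMap 𝒪 T)]
  [Module.Finite 𝒪 T] [Module.Free 𝒪 T]

/-- **The frozen S33 from block B1 alone.** -/
theorem s33_of_nmBlocks
    (hB : ∀ (M p : ℕ) [NeZero M] [NeZero p], p.Prime → p ≠ 2 → Nat.Coprime M p → 4 ∣ M →
      Fermat.Agent.H92.ORD.NmBlocks M p)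
    [Finite (IsLocalRing.ResidueField 𝒪)] [CharZero 𝒪]
    (hp : p.Prime) (hp2 : p ≠ 2) (hp𝒪 : (p : 𝒪) ∈ IsLocalRing.maximalIdeal 𝒪)
    (hN : p ∣ N ∧ ¬ p ^ 2 ∣ N)
    (hNS : ∀ q : ℕ, q.Prime → q ∣ N → q ∈ S)
    (H : CuspForm.HeckeGaloisRepDatum N (↑S : Set ℕ) 𝒪 θ T)
    (hres : (GaloisRepAdic.ofResidualGaloisRep H.ρ.residual).IsOrdinaryAt p) :
    H.ρ.IsOrdinaryAt p :=
  Fermat.Agent.H72.ORD.s33_of_add_sep_inst addApproxN_closed sepOfRR_closed
    (Fermat.Agent.H92.ORD.b1_instance_all hB) hp hp2 hp𝒪 hN hNS H hres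

end S33

end Fermat.Agent.H14.ORD
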