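/-
helper14 (P-ORD, S33 assembly): the frozen S33 from the geometric contract in the form
"connected order" (`OrdinaryOrderStatement N p`, module `Fermat.Agent.H14.ORD.NoSubFinal`).

`s33_of_order hOO hp hp2 hp𝒪 hN hNS H hres : H.ρ.IsOrdinaryAt p`.
-/
import Fermat.Agent.H14.ORD.S33OfOrd
import Fermat.Agent.H14.ORD.NoSubFinal

set_option autoImplicit false
set_option linter.style.haveILetI false

namespace Fermat.Agent.H14.ORD

variable {p : ℕ} {N : ℕ} [NeZero N] {S : Finset ℕ}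
  {𝒪 : Type} [CommRing 𝒪] [IsDomain 𝒪] [IsDiscreteValuationRing 𝒪]
  [IsAdicComplete (IsLocalRing.maximalIdeal 𝒪) 𝒪]
  {θ : CuspForm.heckeAlgebra N 2 (↑S : Set ℕ) →+* IsLocalRing.ResidueField 𝒪}
  {T : Type} [CommRing T] [IsLocalRing T] [IsNoetherianRing T]
  [IsAdicComplete (IsLocalRing.maximalIdeal T) T] [Algebra 𝒪 T] [IsLocalHom (algebraMap 𝒪 T)]
  [Module.Finite 𝒪 T] [Module.Free 𝒪 T]

/-- **S33 from the connected-order contract.** -/
theorem s33_of_order (hOO : OrdinaryOrderStatement N p)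
    [Finite (IsLocalRing.ResidueField 𝒪)] [CharZero 𝒪]
    (hp : p.Prime) (hp2 : p ≠ 2) (hp𝒪 : (p : 𝒪) ∈ IsLocalRing.maximalIdeal 𝒪)
    (hN : p ∣ N ∧ ¬ p ^ 2 ∣ N)
    (hNS : ∀ q : ℕ, q.Prime → q ∣ N → q ∈ S)
    (H : CuspForm.HeckeGaloisRepDatum N (↑S : Set ℕ) 𝒪 θ T)
    (hres : (GaloisRepAdic.ofResidualGaloisRep H.ρ.residual).IsOrdinaryAt p) :
    H.ρ.IsOrdinaryAt p := by
  haveI : Fact p.Prime := ⟨hp⟩
  exact s33_of_ordinaryTorsion (ordinaryTorsion_of_order hp2 hOO) hp hp2 hp𝒪 hN hNS H hres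

end Fermat.Agent.H14.ORD
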