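/-
helper14 (P-ORD, S33): TOP ASSEMBLY.  The frozen S33 from the open blocks of P-ORD:

* `ConnOrderOfCoordStatement`  (row ORD-C2, CONN),
* `NodalJacSystemStatement`, `NodalJacCoordStatement`, `NodalKummerStatement`,
  `NodalAddApproxStatement`  (block B2, abstract, on `NodalRvHyp`),
* `NodalInstanceStatement N' p` at the auxiliary levels `N'` (`p ∥ N'`, `m ∣ N'`) (block B1),

through `ordinaryTorsion_of_nodal` (helper72), `ordinaryTorsion_of_aux` (helper21) and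
`s33_of_ordinaryTorsion` (helper14).
-/
import Fermat.Agent.H14.ORD.S33OfOrd
import Fermat.Agent.H72.ORD.Assembly
import Fermat.Agent.H72.ORD.NodalBlocks
import Fermat.Agent.H21.Ord.LevelDescent

set_option autoImplicit false
set_option linter.style.haveILetI false

namespace Fermat.Agent.H14.ORD

open Fermat.Agent.H72.ORD

variable {p : ℕ} {N : ℕ} [NeZero N] {S : Finset ℕ}
  {𝒪 : Type} [CommRing 𝒪] [IsDomain 𝒪] [IsDiscreteValuationRing 𝒪]
  [IsAdicComplete (IsLocalRing.maximalIdeal 𝒪) 𝒪]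
  {θ : CuspForm.heckeAlgebra N 2 (↑S : Set ℕ) →+* IsLocalRing.ResidueField 𝒪}
  {T : Type} [CommRing T] [IsLocalRing T] [IsNoetherianRing T]
  [IsAdicComplete (IsLocalRing.maximalIdeal T) T] [Algebra 𝒪 T] [IsLocalHom (algebraMap 𝒪 T)]
  [Module.Finite 𝒪 T] [Module.Free 𝒪 T]

/-- **S33 from the geometric target at the auxiliary levels.** -/
theorem s33_of_nodalAux (m : ℕ) (hm : m ≠ 0) (hC2 : ConnOrderOfCoordStatement)
    [Finite (IsLocalRing.ResidueField 𝒪)] [CharZero 𝒪]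
    (hp : p.Prime) (hp2 : p ≠ 2) (hpm : Nat.Coprime p m)
    (hG : ∀ (N' : ℕ) [NeZero N'], p ∣ N' → ¬ p ^ 2 ∣ N' → m ∣ N' →
      NodalCoordDatumStatement N' p)
    (hp𝒪 : (p : 𝒪) ∈ IsLocalRing.maximalIdeal 𝒪)
    (hN : p ∣ N ∧ ¬ p ^ 2 ∣ N)
    (hNS : ∀ q : ℕ, q.Prime → q ∣ N → q ∈ S)
    (H : CuspForm.HeckeGaloisRepDatum N (↑S : Set ℕ) 𝒪 θ T)
    (hres : (GaloisRepAdic.ofResidualGaloisRep H.ρ.residual).IsOrdinaryAt p) :
    H.ρ.IsOrdinaryAt p := by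
  haveI : Fact p.Prime := ⟨hp⟩
  refine s33_of_ordinaryTorsion
    (Fermat.Agent.H21.Ord.ordinaryTorsion_of_aux p m hp hm hpm
      (fun N' _ h1 h2 h3 => ordinaryTorsion_of_nodal hp2 hC2 (hG N' h1 h2 h3)) N hN.1 hN.2)
    hp hp2 hp𝒪 hN hNS H hres

/-- **S33 from the open blocks of P-ORD** (auxiliary level `4 ∣ N'`). -/
theorem s33_of_blocks (hC2 : ConnOrderOfCoordStatement)
    (hB : NodalJacSystemStatement) (hC : NodalJacCoordStatement) (hK : NodalKummerStatement)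
    (hJ : NodalAddApproxStatement)
    (hI : ∀ (q : ℕ), q.Prime → q ≠ 2 → ∀ (N' : ℕ) [NeZero N'], q ∣ N' → ¬ q ^ 2 ∣ N' →
      4 ∣ N' → NodalInstanceStatement N' q)
    [Finite (IsLocalRing.ResidueField 𝒪)] [CharZero 𝒪]
    (hp : p.Prime) (hp2 : p ≠ 2) (hp𝒪 : (p : 𝒪) ∈ IsLocalRing.maximalIdeal 𝒪)
    (hN : p ∣ N ∧ ¬ p ^ 2 ∣ N)
    (hNS : ∀ q : ℕ, q.Prime → q ∣ N → q ∈ S)
    (H : CuspForm.HeckeGaloisRepDatum N (↑S : Set ℕ) 𝒪 θ T)
    (hres : (GaloisRepAdic.ofResidualGaloisRep H.ρ.residual).IsOrdinaryAt p) :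
    H.ρ.IsOrdinaryAt p := by
  have hpm : Nat.Coprime p 4 := by
    have h2 : Nat.Coprime p 2 := (Nat.coprime_primes hp Nat.prime_two).2 hp2
    have : (4 : ℕ) = 2 ^ 2 := by norm_num
    rw [this]
    exact Nat.Coprime.pow_right 2 h2
  exact s33_of_nodalAux 4 (by norm_num) hC2 hp hp2 hpm
    (fun N' _ h1 h2 h3 => nodalCoordDatum_of_instance hB hC hK hJ N' p (hI p hp hp2 N' h1 h2 h3))
    hp𝒪 hN hNS H hres

end Fermat.Agent.H14.ORD
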